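/-
IHARA track, package (H) [SC] (helper8), file 7: **the abstract core of the field (SC) of `IhaHecke`**
(`Lib/Ihara/Asm/Level.lean`): `∀ v, ∃ u, ρM aq v - v = x γ u - u`,
reduced to the statement at the joint eigen-points of the Hecke ring `A` and the diamond group on the
quotient `M' = M / (x γ - 1) M`:

  `hpt` : at every point `P` of `A` with a non-zero joint eigenvector `y ∈ P.R ⊗ M'` of `A`
  (eigensystem `P.ψ`) and of the diamonds `G'` acting on `M'` (character `χ`): `P.ψ aq = 1`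

(which is POINT→CLASS + `ihsc_point_aq`: the diamond character of the class is trivial at `q`, so the
Galois representation at the point is unramified at `q`).

* `ihsc_eq_one_of_points` : `aq ^ (p ^ c) = 1` and `hpt` give `ρM' aq = 1` (an endomorphism of finite
  order of a torsion-free module is semisimple: joint eigenvector in the range of `ρM' aq - 1`,
  helper4's `ihn_exists_joint_eigen`);
* `ihsc_main` : hence (SC), for any surjection-like `π : M → M'` with `ker π ⊆ (x γ - 1) M`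
  intertwining the actions of `A`.
-/
import Mathlib
import Fermat.Agent.Lib.Ihara.Nf.WL

set_option autoImplicit false
set_option linter.unusedSectionVars false
set_option linter.unusedVariables false
set_option linter.style.haveILetI false

open IsLocalRing
open scoped TensorProduct

namespace Fermat.Agent.Ihara

open Fermat.Agent.Alpha (AlpqPoint)

section SC

variable {𝒪 : Type} [CommRing 𝒪] [IsDomain 𝒪] [IsDiscreteValuationRing 𝒪]
  [IsAdicComplete (maximalIdeal 𝒪) 𝒪] [Finite (ResidueField 𝒪)] [CharZero 𝒪]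
  {M' : Type} [AddCommGroup M'] [Module 𝒪 M'] [Module.Finite 𝒪 M'] [Module.IsTorsionFree 𝒪 M']
  {A : Type} [CommRing A] [IsLocalRing A] [Algebra 𝒪 A]
  {G' : Type*} [CommGroup G']

/-- **an element of `p`-power order of the Hecke ring which is `1` at all joint eigen-points acts
trivially** -/
theorem ihsc_eq_one_of_points {p : ℕ} (hp : p.Prime) (hp𝒪 : (p : 𝒪) ∈ maximalIdeal 𝒪)
    (hres : Function.Surjective (residue A ∘ algebraMap 𝒪 A))
    (hA : ∃ k : ℕ, maximalIdeal A ^ k ≤ (maximalIdeal 𝒪).map (algebraMap 𝒪 A))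
    (ρM' : A →ₐ[𝒪] Module.End 𝒪 M')
    (hG : ∀ g : G', ∃ c : ℕ, g ^ (p ^ c) = 1) (x' : G' →* Module.End 𝒪 M')
    (hcomm : ∀ t g, Commute (ρM' t) (x' g))
    (aq : A) (c : ℕ) (haq : aq ^ (p ^ c) = 1)
    (hpt : ∀ (P : AlpqPoint 𝒪 A) (χ : G' →* P.R) (y : P.R ⊗[𝒪] M'), y ≠ 0 →
      (∀ t, (ρM' t).baseChange P.R y = P.ψ t • y) → (∀ g, (x' g).baseChange P.R y = χ g • y) →
      P.ψ aq = 1) : ρM' aq = 1 := by
  classical
  by_contra hne
  set t : Module.End 𝒪 M' := ρM' aq - 1 with ht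
  set W : Submodule 𝒪 M' := LinearMap.range t with hW
  set Φ : Module.End 𝒪 M' := ∑ k ∈ Finset.range (p ^ c), ρM' aq ^ k with hΦ
  have htA : ∀ s, Commute (ρM' s) t := by
    intro s
    refine Commute.sub_right ?_ (Commute.one_right _)
    rw [Commute, SemiconjBy, ← map_mul, ← map_mul, mul_comm]
  have htx : ∀ g, Commute (x' g) t := fun g =>
    Commute.sub_right (hcomm aq g).symm (Commute.one_right _)
  have hstab : ∀ f : Module.End 𝒪 M', Commute f t → ∀ w ∈ W, f w ∈ W := by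
    rintro f hf w ⟨z, rfl⟩
    exact ⟨f z, by rw [← Module.End.mul_apply, ← hf.eq, Module.End.mul_apply]⟩
  have hWne : W ≠ ⊥ := by
    intro h
    apply hne
    have h1 : t = 0 := LinearMap.range_eq_bot.mp h
    exact sub_eq_zero.mp h1
  obtain ⟨P, χ, y, hy0, hyW, hyA, hyG⟩ := ihn_exists_joint_eigen hp hp𝒪 hres hA ρM' hG x' hcomm W
    hWne (fun s => hstab _ (htA s)) (fun g => hstab _ (htx g))
  -- `P.R ⊗ M'` has no torsion
  haveI : Module.Free 𝒪 M' := Module.free_of_finite_type_torsion_free'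
  haveI : Module.IsTorsionFree P.R (P.R ⊗[𝒪] M') := inferInstance
  have hcancel : ∀ r : P.R, r • y = 0 → r = 0 := fun r hr =>
    (smul_eq_zero.mp hr).resolve_right hy0
  -- `Φ` kills `W`
  have hΦt : Φ * t = 0 := by
    rw [hΦ, ht, geom_sum_mul, ← map_pow, haq, map_one, sub_self]
  have hΦy : Φ.baseChange P.R y = 0 :=
    ihn_baseChange_eq_zero_of_range P.R Φ W (fun w hw => by
      obtain ⟨z, rfl⟩ := hw
      rw [← Module.End.mul_apply, hΦt, LinearMap.zero_apply]) y hyW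
  -- the value at the point
  have h1 : P.ψ aq = 1 := hpt P χ y hy0 hyA hyG
  have hpow : ∀ k : ℕ, (ρM' aq ^ k).baseChange P.R y = y := by
    intro k
    rw [← map_pow, hyA, map_pow, h1, one_pow, one_smul]
  have hsum : ((p ^ c : ℕ) : P.R) • y = 0 := by
    rw [← hΦy, hΦ]
    rw [show (∑ k ∈ Finset.range (p ^ c), ρM' aq ^ k : Module.End 𝒪 M').baseChange P.R
      = ∑ k ∈ Finset.range (p ^ c), (ρM' aq ^ k).baseChange P.R from
        map_sum (LinearMap.baseChangeHom 𝒪 P.R M' M') _ _, LinearMap.sum_apply,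
      Finset.sum_congr rfl fun k _ => hpow k, Finset.sum_const, Finset.card_range,
      Nat.cast_smul_eq_nsmul]
  have h2 := hcancel _ hsum
  exact (pow_ne_zero c hp.ne_zero) (Nat.cast_eq_zero.mp h2)

/-- **(H) [SC]**, abstract core -/
theorem ihsc_main {p : ℕ} (hp : p.Prime) (hp𝒪 : (p : 𝒪) ∈ maximalIdeal 𝒪)
    (hres : Function.Surjective (residue A ∘ algebraMap 𝒪 A))
    (hA : ∃ k : ℕ, maximalIdeal A ^ k ≤ (maximalIdeal 𝒪).map (algebraMap 𝒪 A))
    {M : Type*} [AddCommGroup M] [Module 𝒪 M]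
    (ρM : A →ₐ[𝒪] Module.End 𝒪 M) (xγ : Module.End 𝒪 M)
    (π : M →ₗ[𝒪] M') (hπ : LinearMap.ker π ≤ LinearMap.range (xγ - 1))
    (ρM' : A →ₐ[𝒪] Module.End 𝒪 M') (hρπ : ∀ t v, π (ρM t v) = ρM' t (π v))
    (hG : ∀ g : G', ∃ c : ℕ, g ^ (p ^ c) = 1) (x' : G' →* Module.End 𝒪 M')
    (hcomm : ∀ t g, Commute (ρM' t) (x' g))
    (aq : A) (c : ℕ) (haq : aq ^ (p ^ c) = 1)
    (hpt : ∀ (P : AlpqPoint 𝒪 A) (χ : G' →* P.R) (y : P.R ⊗[𝒪] M'), y ≠ 0 →
      (∀ t, (ρM' t).baseChange P.R y = P.ψ t • y) → (∀ g, (x' g).baseChange P.R y = χ g • y) →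
      P.ψ aq = 1) (v : M) : ∃ u, ρM aq v - v = xγ u - u := by
  have h1 : ρM' aq = 1 := ihsc_eq_one_of_points hp hp𝒪 hres hA ρM' hG x' hcomm aq c haq hpt
  have h2 : ρM aq v - v ∈ LinearMap.ker π := by
    rw [LinearMap.mem_ker, map_sub, hρπ, h1, Module.End.one_apply, sub_self]
  obtain ⟨u, hu⟩ := hπ h2
  exact ⟨u, by rw [← hu, LinearMap.sub_apply, Module.End.one_apply]⟩

end SC

end Fermat.Agent.Ihara
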