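/-
IHARA track, package (H) [SC] (helper8), file 8: **the field (SC) of `IhaHecke`** on helper1's
`M^χ = IhmChiPart O M hM H Ps θ Δ₁ χ`:

  `∀ v, ∃ u, ρM aq v - v = ihmChiDia … Δ₁ χ γ u - u`

for the inertia scalar `aq = tr(e · rA σ)` (`σ` in the inertia group at the Taylor–Wiles prime `q`,
`tr e = 1`, `aq ^ (p ^ c) = 1`: the outputs of helper5's `ihta_AQ`) and the generator `γ` of the
`q`-component of the diamond group.

Wiring: helper1's identification `M^χ / (⟨γ⟩ - 1) M^χ = M^χ'` (`Hm/ProjPart.lean`: `Δ₁' = Δ₁ ⊔ ⟨γ⟩`,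
`χ' = χ` on `Δ₁`, `χ' γ = 1`) + `ihsc_main` (joint eigen-points of `A` and the diamonds on `M^χ'`)
+ helper6's POINT→CLASS `ihpc_core` (a class `c ≠ 0` of level `Γ_H(M)` over `P.R` with diamond
character `Ψ`, `T♭`-eigenvalues `P.ψ (tT ℓ)`, `θ`-local at `U_q`) + `ihsc_point_ker` (`Ψ` is trivial
on the `q`-component, hence the Galois representation at the point is unramified at `q` and
`P.ψ aq = 1`).
-/
import Mathlib
import Fermat.Agent.Lib.Ihara.Sc.Point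
import Fermat.Agent.Lib.Ihara.Sc.Main
import Fermat.Agent.Lib.Ihara.Hm.ProjPart
import Fermat.Agent.Lib.Ihara.Hm.Nil
import Fermat.Agent.Lib.Ihara.Pc.Main

set_option autoImplicit false
set_option linter.unusedSectionVars false
set_option linter.unusedVariables false
set_option linter.style.haveILetI false

open Matrix MatrixGroups CongruenceSubgroup ModularCurve ModularCurve.Period Module IsLocalRing
open Fermat.Agent.DS Fermat.Agent.T1 Fermat.Agent.T1G Fermat.Agent.T2 Fermat.Agent.S53Lib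
  Fermat.Agent.TW
open scoped TensorProduct

namespace Fermat.Agent.Ihara

local notation "Qbar" => AlgebraicClosure ℚ
local notation "GQ" => (AlgebraicClosure ℚ ≃ₐ[ℚ] AlgebraicClosure ℚ)

open Fermat.Agent.Alpha (AlpqPoint)

section Field

variable (O : Type) [CommRing O] [IsDomain O] [IsDiscreteValuationRing O] [CharZero O]
  [IsAdicComplete (maximalIdeal O) O] [Finite (ResidueField O)]
  (M : ℕ) [NeZero M] (hM : 6 ≤ M) (H : Subgroup (ZMod M)ˣ) (Ps : Set ℕ) (θ : ℕ → O)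
  (Δ₁ : Subgroup ((ZMod M)ˣ ⧸ H)) (χ : Δ₁ →* O)
  (Δ₁' : Subgroup ((ZMod M)ˣ ⧸ H)) (χ' : Δ₁' →* O)
  (hle : Δ₁ ≤ Δ₁') (hχ : ∀ g : Δ₁, χ' ⟨g, hle g.2⟩ = χ g)
  (γ : (ZMod M)ˣ ⧸ H) (hγ : γ ∈ Δ₁') (hγ1 : χ' ⟨γ, hγ⟩ = 1)
  (hsup : Δ₁' ≤ Δ₁ ⊔ Subgroup.zpowers γ)

include hle hχ hγ hγ1 hsup in
/-- **(H) [SC]: the field (SC) of `IhaHecke`** -/
theorem ihsc_field {p : ℕ} [hp : Fact p.Prime] (hL : IhfLevel p M H)
    (hpO : (p : O) ∈ maximalIdeal O)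
    [Module.IsTorsionFree O (IhmChiPart O M hM H Ps θ Δ₁' χ')]
    {A : Type} [CommRing A] [IsLocalRing A] [Algebra O A]
    (hres : Function.Surjective (residue A ∘ algebraMap O A))
    (hA : ∃ k : ℕ, maximalIdeal A ^ k ≤ (maximalIdeal O).map (algebraMap O A))
    (ρM : A →ₐ[O] Module.End O (IhmChiPart O M hM H Ps θ Δ₁ χ))
    (hcomm : ∀ t δ, Commute (ρM t) (ihmChiDia O M hM H Ps θ Δ₁ χ δ))
    {Rl : List ℕ} {k : ℕ → ℕ} (hyp : IhtcHyp M H Rl k) {q : ℕ} (hq : q ∈ Rl) (hqp : q ≠ p)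
    (hne : Rl.erase q ≠ []) {N' : ℕ} (hN' : N' = M * Rl.prod)
    (S : Finset ℕ) (hpS : p ∈ S) (hNS : ∀ ℓ : ℕ, ℓ.Prime → ℓ ∣ N' → ℓ ∈ S)
    (hιq : ∀ u : (ZMod q)ˣ, ∃ n : ℕ,
      ((ihtcIota M q u : (ZMod M)ˣ) : (ZMod M)ˣ ⧸ H) = γ ^ n)
    (tT : ℕ → A)
    (hρT : ∀ ℓ : ℕ, ℓ.Prime → ℓ ∉ S → ρM (tT ℓ) = ihmChiOp O M hM H Ps θ Δ₁ χ ℓ *
      ihmChiDia O M hM H Ps θ Δ₁ χ ((ihtcZ M Rl k ℓ : (ZMod M)ˣ) : (ZMod M)ˣ ⧸ H))
    (rA : GQ →* Matrix (Fin 2) (Fin 2) A) (hcts : MatCts A rA)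
    (habs : (ofMat rA hcts).residual.IsAbsolutelyIrreducible)
    (hfr : ∀ ℓ : ℕ, ℓ.Prime → ℓ ∉ S → ∀ P : ValuationSubring Qbar, P.LiesOverPrime ℓ →
      ∀ σ : GQ, P.IsFrobeniusAt σ ℓ → (rA σ).trace = tT ℓ ∧ (rA σ).det = (ℓ : A))
    (hqPs : q ∈ Ps) (hθq : IsUnit (θ q)) (hθq2 : IsUnit (1 - θ q ^ 2))
    (hq1 : ((q : ℕ) : O) - 1 ∈ maximalIdeal O)
    (P : ValuationSubring Qbar) (hP : P.LiesOverPrime q) (σ : GQ)
    (hσ : σ ∈ P.inertiaSubgroupIn ℚ)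
    (e : Matrix (Fin 2) (Fin 2) A) (he : e.trace = 1) (aq : A) (haq : aq = (e * rA σ).trace)
    (c : ℕ) (haqc : aq ^ (p ^ c) = 1)
    (v : IhmChiPart O M hM H Ps θ Δ₁ χ) :
    ∃ u, ρM aq v - v = ihmChiDia O M hM H Ps θ Δ₁ χ γ u - u := by
  classical
  have hπsurj := ihmChiPartProj_surjective O M hM H Ps θ Δ₁ χ Δ₁' χ' hle hχ
  have hker := ihmChiPartProj_ker_le O M hM H Ps θ Δ₁ χ Δ₁' χ' hle hχ γ hγ hγ1 hsup
  obtain ⟨ρM', hρπ⟩ := ihm_chi_part_exists_action O M hM H Ps θ Δ₁ χ Δ₁' χ' hle hχ γ hγ hγ1 hsup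
    ρM (fun t => hcomm t γ)
  have hG' : ∀ g : (ZMod M)ˣ ⧸ H, ∃ c : ℕ, g ^ (p ^ c) = 1 := fun g => ihm_quot_pow M H hL g
  have hcomm' : ∀ t g, Commute (ρM' t) (ihmChiDia O M hM H Ps θ Δ₁' χ' g) := fun t g =>
    ihm_quot_action_commute ρM _ hπsurj ρM' hρπ (ihmChiDia O M hM H Ps θ Δ₁ χ g)
      (ihmChiDia O M hM H Ps θ Δ₁' χ' g)
      (ihmChiPartProj_dia O M hM H Ps θ Δ₁ χ Δ₁' χ' hle hχ g) t (hcomm t g)
  -- the Hecke operators on `M^χ'`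
  have hρT' : ∀ ℓ : ℕ, ℓ.Prime → ℓ ∉ S → ρM' (tT ℓ) = ihmChiOp O M hM H Ps θ Δ₁' χ' ℓ *
      ihmChiDia O M hM H Ps θ Δ₁' χ' ((ihtcZ M Rl k ℓ : (ZMod M)ˣ) : (ZMod M)ˣ ⧸ H) := by
    intro ℓ hℓ hℓS
    refine LinearMap.ext fun x => ?_
    obtain ⟨w, rfl⟩ := hπsurj x
    rw [← hρπ, hρT ℓ hℓ hℓS, Module.End.mul_apply, Module.End.mul_apply, ihmChiPartProj_op,
      ihmChiPartProj_dia]
  -- `γ` acts trivially on `M^χ'`
  have hγone : ihmChiDia O M hM H Ps θ Δ₁' χ' γ = 1 := by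
    refine LinearMap.ext fun x => ?_
    have h1 := ihmChiDia_of_mem O M hM H Ps θ Δ₁' χ' ⟨γ, hγ⟩ x
    rw [hγ1, one_smul] at h1
    rw [Module.End.one_apply]
    exact h1
  haveI : Module.Finite O (IhmChiPart O M hM H Ps θ Δ₁' χ') := inferInstance
  refine ihsc_main (G' := (ZMod M)ˣ ⧸ H) hp.out hpO hres hA ρM (ihmChiDia O M hM H Ps θ Δ₁ χ γ)
    (ihmChiPartProj O M hM H Ps θ Δ₁ χ Δ₁' χ' hle hχ) hker ρM' hρπ hG'
    (ihmChiDia O M hM H Ps θ Δ₁' χ') hcomm' aq c haqc ?_ v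
  intro Pt χg y hy0 hyA hyG
  haveI : Module.IsTorsionFree O Pt.R :=
    Module.isTorsionFree_iff_algebraMap_injective.mpr Pt.inj
  haveI : Module.Free O Pt.R := Module.free_of_finite_type_torsion_free'
  haveI : Module.Free O (IhmChiPart O M hM H Ps θ Δ₁' χ') :=
    Module.free_of_finite_type_torsion_free'
  haveI : Module.IsTorsionFree Pt.R (Pt.R ⊗[O] IhmChiPart O M hM H Ps θ Δ₁' χ') := inferInstance
  have hcancel : ∀ r : Pt.R, r • y = 0 → r = 0 := fun r hr =>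
    (smul_eq_zero.mp hr).resolve_right hy0
  -- the class
  obtain ⟨cl, hc0, hcD, hcT, hcN⟩ := ihpc_core O M hM H Ps θ Δ₁' χ' Pt.R (ihtcZ M Rl k)
    {ℓ | ℓ.Prime ∧ ℓ ∉ S} y hy0 (fun ℓ => Pt.ψ (tT ℓ))
    (fun ℓ hℓ => by rw [← hρT' ℓ hℓ.1 hℓ.2]; exact hyA (tT ℓ)) χg hyG
  -- the diamond character
  have hχgγ : χg γ = 1 := by
    have h1 := hyG γ
    rw [hγone, Module.End.one_eq_id, LinearMap.baseChange_id, LinearMap.id_apply] at h1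
    have h2 : (χg γ - 1) • y = 0 := by
      have h3 : (χg γ - 1) • y = χg γ • y - y := by module
      rw [h3, ← h1, sub_self]
    exact sub_eq_zero.mp (hcancel _ h2)
  have hpR : (p : Pt.R) ∈ maximalIdeal Pt.R := Pt.natCast_mem hpO
  have hψH : ∀ d ∈ H, (χg.comp (QuotientGroup.mk' H)) d = 1 := by
    intro d hd
    rw [MonoidHom.comp_apply, QuotientGroup.mk'_apply, (QuotientGroup.eq_one_iff d).mpr hd,
      map_one]
  have hψq : ∀ u : (ZMod q)ˣ, (χg.comp (QuotientGroup.mk' H)) (ihtcIota M q u) = 1 := by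
    intro u
    obtain ⟨n, hn⟩ := hιq u
    rw [MonoidHom.comp_apply, QuotientGroup.mk'_apply, hn, map_pow, hχgγ, one_pow]
  have hψ1 : ∀ d, (χg.comp (QuotientGroup.mk' H)) d - 1 ∈ maximalIdeal Pt.R := fun d =>
    ihsc_char_sub_one_mem hp.out hpR H hL.pgroup _ hψH d
  have hα : IsUnit (algebraMap O Pt.R (θ q)) := hθq.map _
  have hα2 : IsUnit (1 - algebraMap O Pt.R (θ q) ^ 2) := by
    have h1 := hθq2.map (algebraMap O Pt.R)
    rwa [map_sub, map_one, map_pow] at h1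
  have hq1' : ((q : ℕ) : Pt.R) - 1 ∈ maximalIdeal Pt.R := by
    have h1 := map_nonunit (algebraMap O Pt.R) _ hq1
    rwa [map_sub, map_one, map_natCast] at h1
  have hMN' : M ∣ N' := ⟨_, hN'⟩
  exact (ihsc_point_ker p hpR hM hyp hq hqp hne hN' S hpS hNS rA hcts habs tT hfr
    (Pt.ψ : A →+* Pt.R) Pt.isLocalHom_ψ (χg.comp (QuotientGroup.mk' H)) hψH hψq hψ1 cl hc0
    (fun d => hcD d)
    (fun ℓ hℓ hℓN' hℓS => hcT ℓ ⟨hℓ, hℓS⟩ hℓ (fun h => hℓN' (h.trans hMN')))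
    (algebraMap O Pt.R (θ q)) hα hα2 hq1' (hcN q hqPs) P hP σ hσ).2 e he aq haq

end Field

end Fermat.Agent.Ihara
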