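/-
IHARA track, package (H) [SC] (helper8), file 9: **the field (SC) in the setting of helper7's tuple**
(`Glue/Out.lean`): for an output `out : IhkOut …` of `ihk_main_chi'` (Hecke ring `IhdImg O a θ'` of
`M^χ = IhmChiPart`, action `ihiAct O a θ' hpart`, representation `rA`),

* `ihscTau`, `ihsc_out_act`, `ihsc_out_frob` : the Hecke operators `τ ℓ = π(T_ℓ)` of the Hecke ring
  (total in `ℓ`), with `ρM (τ ℓ) = T_ℓ ⟨z ℓ⟩` and `tr rA(Frob_ℓ) = τ ℓ`, `det rA(Frob_ℓ) = ℓ`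
  (`ℓ ∉ S`) — the binders `τ`, `hτ`, `hfrobA` of helper4's `ihn_fields_*` and `tT`, `hρT`, `hfr` of
  `ihsc_field`;
* `ihsc_field_out` : the (SC) conjunct of the hypothesis `hAQ` of helper7's `ihk_hecke`.
-/
import Mathlib
import Fermat.Agent.Lib.Ihara.Sc.Field
import Fermat.Agent.Lib.Ihara.Glue.Out

set_option autoImplicit false
set_option linter.unusedSectionVars false
set_option linter.unusedVariables false
set_option linter.style.haveILetI false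

open Matrix MatrixGroups CongruenceSubgroup ModularCurve ModularCurve.Period Module IsLocalRing
open Fermat.Agent.DS Fermat.Agent.T1 Fermat.Agent.T1G Fermat.Agent.T2 Fermat.Agent.S53Lib
  Fermat.Agent.TW
open scoped TensorProduct

namespace Fermat.Agent.Ihara

local notation "Qbar" => AlgebraicClosure ℚ
local notation "GQ" => (AlgebraicClosure ℚ ≃ₐ[ℚ] AlgebraicClosure ℚ)

section Out

variable (O : Type) [CommRing O] [IsDomain O] [IsDiscreteValuationRing O] [CharZero O]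
  [IsAdicComplete (maximalIdeal O) O] [Finite (ResidueField O)]
  (M : ℕ) [NeZero M] (hM : 6 ≤ M) (H : Subgroup (ZMod M)ˣ) (Ps : Set ℕ) (θ : ℕ → O)
  (Δ₁ : Subgroup ((ZMod M)ˣ ⧸ H)) (χ : Δ₁ →* O)
  {N' : ℕ} [NeZero N'] {S : Finset ℕ}
  (a : CuspForm.heckeAlgebra N' 2 (↑S : Set ℕ) →+*
    Module.End O (IhmChiPart O M hM H Ps θ Δ₁ χ))
  (θ' : CuspForm.heckeAlgebra N' 2 (↑S : Set ℕ) →+* ResidueField O)

/-- the Hecke operator `T_ℓ` as an element of the Hecke ring, total in `ℓ` (`0` unless `ℓ` is a prime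
outside `S` not dividing `N'`) -/
noncomputable def ihscTau (ℓ : ℕ) : IhdImg O a θ' := by
  classical
  exact if h : ℓ.Prime ∧ ¬ ℓ ∣ N' ∧ ℓ ∉ (↑S : Set ℕ) then
    ihdImgPi O a θ' (CuspForm.heckeAlgebra.T h.1 h.2.1 h.2.2) else 0

theorem ihscTau_of {ℓ : ℕ} (hℓ : ℓ.Prime) (hℓN : ¬ ℓ ∣ N') (hℓS : ℓ ∉ (↑S : Set ℕ)) :
    ihscTau O M hM H Ps θ Δ₁ χ a θ' ℓ
      = ihdImgPi O a θ' (CuspForm.heckeAlgebra.T hℓ hℓN hℓS) := by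
  unfold ihscTau
  rw [dif_pos ⟨hℓ, hℓN, hℓS⟩]

variable (hpart : ihdPart O a θ' = ⊤) [Nontrivial ↥(ihdPart O a θ')]
  (rA : GQ →* Matrix (Fin 2) (Fin 2) (IhdImg O a θ')) (hcts : MatCts (IhdImg O a θ') rA)
  {z : ℕ → (ZMod M)ˣ} {p : ℕ} {ρbar : ResidualGaloisRep (ResidueField O)}
  {b : Module.Basis (Fin 2) (ResidueField O) ρbar.V} {Smin : Finset ℕ}
  (out : IhkOut O M hM H Ps θ Δ₁ χ z p ρbar b Smin a θ' hpart rA hcts)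
  (hS : ∀ l : ℕ, l.Prime → l ∣ N' → l ∈ S)

include out hS in
/-- `ρM (τ ℓ) = T_ℓ ⟨z ℓ⟩` -/
theorem ihsc_out_act (ℓ : ℕ) (hℓ : ℓ.Prime) (hℓS : ℓ ∉ S) :
    ihiAct O a θ' hpart (ihscTau O M hM H Ps θ Δ₁ χ a θ' ℓ)
      = ihmChiOp O M hM H Ps θ Δ₁ χ ℓ *
        ihmChiDia O M hM H Ps θ Δ₁ χ ((z ℓ : (ZMod M)ˣ) : (ZMod M)ˣ ⧸ H) := by
  have hℓN : ¬ ℓ ∣ N' := fun h => hℓS (hS ℓ hℓ h)
  have hℓS' : ℓ ∉ (↑S : Set ℕ) := by exact_mod_cast hℓS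
  rw [ihscTau_of O M hM H Ps θ Δ₁ χ a θ' hℓ hℓN hℓS', ihiAct_pi, out.hecke ℓ hℓ hℓN hℓS']

include out hS in
/-- `tr rA(Frob_ℓ) = τ ℓ`, `det rA(Frob_ℓ) = ℓ` for `ℓ ∉ S` -/
theorem ihsc_out_frob (hpS : p ∈ S) (ℓ : ℕ) (hℓ : ℓ.Prime) (hℓS : ℓ ∉ S)
    (P : ValuationSubring Qbar) (hP : P.LiesOverPrime ℓ) (σ : GQ) (hσ : P.IsFrobeniusAt σ ℓ) :
    (rA σ).trace = ihscTau O M hM H Ps θ Δ₁ χ a θ' ℓ ∧ (rA σ).det = (ℓ : IhdImg O a θ') := by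
  have hℓN : ¬ ℓ ∣ N' := fun h => hℓS (hS ℓ hℓ h)
  have hℓS' : ℓ ∉ (↑S : Set ℕ) := by exact_mod_cast hℓS
  have hℓp : ℓ ≠ p := fun h => hℓS (h ▸ hpS)
  refine ⟨?_, (out.det ℓ hℓ hℓp P hP).1 σ hσ⟩
  apply ihiAct_injective O a θ' hpart
  rw [out.trace_frob ℓ hℓ hℓN hℓS' P hP σ hσ, ihscTau_of O M hM H Ps θ Δ₁ χ a θ' hℓ hℓN hℓS',
    ihiAct_pi]

end Out

section FieldOut

variable (O : Type) [CommRing O] [IsDomain O] [IsDiscreteValuationRing O] [CharZero O]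
  [IsAdicComplete (maximalIdeal O) O] [Finite (ResidueField O)]
  (M : ℕ) [NeZero M] (hM : 6 ≤ M) (H : Subgroup (ZMod M)ˣ) (Ps : Set ℕ) (θ : ℕ → O)
  (Δ₁ : Subgroup ((ZMod M)ˣ ⧸ H)) (χ : Δ₁ →* O)
  (Δ₁' : Subgroup ((ZMod M)ˣ ⧸ H)) (χ' : Δ₁' →* O)
  (hle : Δ₁ ≤ Δ₁') (hχ : ∀ g : Δ₁, χ' ⟨g, hle g.2⟩ = χ g)
  (γ : (ZMod M)ˣ ⧸ H) (hγ : γ ∈ Δ₁') (hγ1 : χ' ⟨γ, hγ⟩ = 1)
  (hsup : Δ₁' ≤ Δ₁ ⊔ Subgroup.zpowers γ)

include hle hχ hγ hγ1 hsup in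
/-- **(H) [SC] in the tuple**: the (SC) conjunct of `hAQ` of helper7's `ihk_hecke`, for any inertia
scalar `aq = tr(e · rA σ)` (`tr e = 1`, `aq ^ (p ^ c) = 1`) at the Taylor–Wiles prime `q` -/
theorem ihsc_field_out {p : ℕ} [hp : Fact p.Prime] (hL : IhfLevel p M H)
    (hpO : (p : O) ∈ maximalIdeal O)
    [Module.IsTorsionFree O (IhmChiPart O M hM H Ps θ Δ₁' χ')]
    {Rl : List ℕ} {k : ℕ → ℕ} (hyp : IhtcHyp M H Rl k) {q : ℕ} (hq : q ∈ Rl) (hqp : q ≠ p)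
    (hne : Rl.erase q ≠ []) {N' : ℕ} [NeZero N'] (hN' : N' = M * Rl.prod)
    {S : Finset ℕ} (hpS : p ∈ S) (hS : ∀ ℓ : ℕ, ℓ.Prime → ℓ ∣ N' → ℓ ∈ S)
    (hιq : ∀ u : (ZMod q)ˣ, ∃ n : ℕ,
      ((ihtcIota M q u : (ZMod M)ˣ) : (ZMod M)ˣ ⧸ H) = γ ^ n)
    (ρbar : ResidualGaloisRep (ResidueField O)) (habs : ρbar.IsAbsolutelyIrreducible)
    (b : Module.Basis (Fin 2) (ResidueField O) ρbar.V) (Smin : Finset ℕ)
    (a : CuspForm.heckeAlgebra N' 2 (↑S : Set ℕ) →+*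
      Module.End O (IhmChiPart O M hM H Ps θ Δ₁ χ))
    (θ' : CuspForm.heckeAlgebra N' 2 (↑S : Set ℕ) →+* ResidueField O)
    (hpart : ihdPart O a θ' = ⊤) [Nontrivial ↥(ihdPart O a θ')]
    (rA : GQ →* Matrix (Fin 2) (Fin 2) (IhdImg O a θ')) (hcts : MatCts (IhdImg O a θ') rA)
    (out : IhkOut O M hM H Ps θ Δ₁ χ (ihtcZ M Rl k) p ρbar b Smin a θ' hpart rA hcts)
    (hqPs : q ∈ Ps) (hθq : IsUnit (θ q)) (hθq2 : IsUnit (1 - θ q ^ 2))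
    (hq1 : ((q : ℕ) : O) - 1 ∈ maximalIdeal O)
    (P : ValuationSubring Qbar) (hP : P.LiesOverPrime q) (σ : GQ)
    (hσ : σ ∈ P.inertiaSubgroupIn ℚ)
    (e : Matrix (Fin 2) (Fin 2) (IhdImg O a θ')) (he : e.trace = 1) (aq : IhdImg O a θ')
    (haq : aq = (e * rA σ).trace) (c : ℕ) (haqc : aq ^ (p ^ c) = 1)
    (v : IhmChiPart O M hM H Ps θ Δ₁ χ) :
    ∃ u, ihiAct O a θ' hpart aq v - v = ihmChiDia O M hM H Ps θ Δ₁ χ γ u - u :=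
  ihsc_field O M hM H Ps θ Δ₁ χ Δ₁' χ' hle hχ γ hγ hγ1 hsup hL hpO out.res_surj
    ihn_exists_pow_le_map (ihiAct O a θ' hpart) (fun t δ => (out.dia_comm δ t).symm) hyp hq hqp hne
    hN' S hpS hS hιq (ihscTau O M hM H Ps θ Δ₁ χ a θ')
    (ihsc_out_act O M hM H Ps θ Δ₁ χ a θ' hpart rA hcts out hS) rA hcts
    (ihsc_residual_absIrr ρbar habs b rA hcts out.strict)
    (ihsc_out_frob O M hM H Ps θ Δ₁ χ a θ' hpart rA hcts out hS hpS) hqPs hθq hθq2 hq1 P hP σ hσ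
    e he aq haq c haqc v

end FieldOut

end Fermat.Agent.Ihara
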