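/-
IHARA track, package (H) [SC] (helper8), file 5: **dropping a prime from the chain of twists**.

`hyp : IhtcHyp N H Rl k` the hypotheses of helper7's composite twist for the full chain `Rl`; `q ∈ Rl`
a prime of the chain; `H' ⊇ H` a subgroup containing the component `ι_q((ℤ/q)ˣ)` of `(ℤ/N)ˣ`.  Then

* `ihsc_hyp_erase` : `IhtcHyp N H' (Rl.erase q) k`;
* `ihsc_Z_erase`   : `z_Rl(ℓ) = y_q(ℓ mod q)⁻¹ · z_{Rl ∖ q}(ℓ)`, so that a character which is trivial on
  the component at `q` takes the same values on the two diamond twists (`ihsc_char_Z_erase`);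
* `ihsc_level_eq`  : `N ∏ (Rl ∖ q) = N'' q` with `q ∤ N''`;
* `ihsc_char_sub_one_mem` : a character of a `p`-group with values in a local ring of residue
  characteristic `p` is congruent to `1`.
-/
import Mathlib
import Fermat.Agent.Lib.Ihara.Tw.Chain

set_option autoImplicit false
set_option linter.unusedSectionVars false
set_option linter.unusedVariables false
set_option linter.style.haveILetI false

namespace Fermat.Agent.Ihara

open IsLocalRing

section Erase

variable {N : ℕ} [NeZero N] {H H' : Subgroup (ZMod N)ˣ} {Rl : List ℕ} {k : ℕ → ℕ}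

/-- **dropping a prime `q` of the chain whose component lies in `H'`** -/
theorem ihsc_hyp_erase (hyp : IhtcHyp N H Rl k) {q : ℕ} (hq : q ∈ Rl) (hle : H ≤ H')
    (hqH : ∀ u : (ZMod q)ˣ, ihtcIota N q u ∈ H') : IhtcHyp N H' (Rl.erase q) k where
  nodup := hyp.nodup.erase q
  prime r hr := hyp.prime r (List.mem_of_mem_erase hr)
  dvd r hr := hyp.dvd r (List.mem_of_mem_erase hr)
  not_sq r hr := hyp.not_sq r (List.mem_of_mem_erase hr)
  supp x hx := by
    haveI : Fact q.Prime := ⟨hyp.prime q hq⟩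
    have hqN : q ∣ N := hyp.dvd q hq
    have hq2 : ¬ q * q ∣ N := hyp.not_sq q hq
    have h1 : x * (ihtcIota N q (ZMod.unitsMap hqN x))⁻¹ ∈ H := by
      refine hyp.supp _ fun r hr h => ?_
      rw [map_mul, map_inv, ihtcIota_eq N q hqN hq2]
      by_cases hrq : r = q
      · subst hrq
        rw [ihtIota_mod_r, mul_inv_cancel]
      · have hr' : r ∈ Rl.erase q := (List.mem_erase_of_ne hrq).mpr hr
        rw [hx r hr' h, ihtc_iota_mod_other N hqN hq2 h
          (ihtc_dvd_div N (hyp.prime q hq) (hyp.prime r hr) hrq hqN h), inv_one, mul_one]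
    have h2 : x = x * (ihtcIota N q (ZMod.unitsMap hqN x))⁻¹
        * ihtcIota N q (ZMod.unitsMap hqN x) := by
      rw [inv_mul_cancel_right]
    rw [h2]
    exact H'.mul_mem (hle h1) (hqH _)
  sqrt r hr u := hle (hyp.sqrt r (List.mem_of_mem_erase hr) u)

/-- the diamond twist of the chain with one prime split off -/
theorem ihsc_Z_erase (N : ℕ) [NeZero N] (k : ℕ → ℕ) {Rl : List ℕ} {q : ℕ} (hq : q ∈ Rl) (ℓ : ℕ) :
    ihtcZ N Rl k ℓ = (ihtcY N k q (ihtcUnit q ℓ))⁻¹ * ihtcZ N (Rl.erase q) k ℓ := by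
  rw [ihtcZ_perm N k (List.perm_cons_erase hq), ihtcZ, ihtcZ, List.map_cons, List.prod_cons,
    mul_inv]

/-- a character which is trivial on the component at `q` does not see the prime `q` of the chain -/
theorem ihsc_char_Z_erase {R : Type*} [Monoid R] (ψ : (ZMod N)ˣ →* R) {q : ℕ} (hq : q ∈ Rl)
    (hψq : ∀ u : (ZMod q)ˣ, ψ (ihtcIota N q u) = 1) (ℓ : ℕ) :
    ψ (ihtcZ N Rl k ℓ) = ψ (ihtcZ N (Rl.erase q) k ℓ) := by
  have h1 : ψ ((ihtcY N k q (ihtcUnit q ℓ))⁻¹) = 1 := by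
    rw [ihtcY, MonoidHom.comp_apply, ← map_inv, hψq]
  rw [ihsc_Z_erase N k hq ℓ, map_mul, h1, one_mul]

end Erase

section Level

/-- the arithmetic of the level: `N ∏ (Rl ∖ q) = N'' q` with `q ∤ N''` -/
theorem ihsc_level_eq {N : ℕ} {Rl : List ℕ} (hnodup : Rl.Nodup) (hprime : ∀ r ∈ Rl, r.Prime)
    {q : ℕ} (hq : q ∈ Rl) (hqN : q ∣ N) (hq2 : ¬ q * q ∣ N) :
    ∃ N'' : ℕ, N * (Rl.erase q).prod = N'' * q ∧ ¬ q ∣ N'' := by
  have hqp : q.Prime := hprime q hq
  obtain ⟨N₁, rfl⟩ := hqN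
  have h1 : ¬ q ∣ N₁ := fun h => hq2 (Nat.mul_dvd_mul_left q h)
  have h2 : ¬ q ∣ (Rl.erase q).prod := by
    intro h
    obtain ⟨a, ha, hqa⟩ := (Prime.dvd_prod_iff hqp.prime).mp h
    have ha' := (List.Nodup.mem_erase_iff hnodup).mp ha
    exact ha'.1 ((Nat.prime_dvd_prime_iff_eq hqp (hprime a ha'.2)).mp hqa).symm
  refine ⟨N₁ * (Rl.erase q).prod, by ring, ?_⟩
  intro h
  rcases (Nat.Prime.dvd_mul hqp).mp h with h | h
  · exact h1 h
  · exact h2 h

end Level

section Char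

variable {R : Type*} [CommRing R] [IsLocalRing R]

/-- an element of `p`-power order of a local ring of residue characteristic `p` is congruent to `1` -/
theorem ihsc_sub_one_mem_of_pow {p : ℕ} (hp : p.Prime) (hpR : (p : R) ∈ maximalIdeal R) (x : R)
    (n : ℕ) (hx : x ^ p ^ n = 1) : x - 1 ∈ maximalIdeal R := by
  haveI : Fact p.Prime := ⟨hp⟩
  haveI : CharP (ResidueField R) p := by
    refine (CharP.charP_iff_prime_eq_zero hp).mpr ?_
    have h1 : ((p : R) : R) ∈ maximalIdeal R := hpR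
    have h2 : residue R (p : R) = 0 := (residue_eq_zero_iff _).mpr h1
    rwa [map_natCast] at h2
  have h3 : (residue R x - 1) ^ p ^ n = 0 := by
    rw [sub_pow_char_pow, ← map_pow, hx, map_one, one_pow, sub_self]
  have h4 : residue R x - 1 = 0 := pow_eq_zero_iff (pow_ne_zero n hp.ne_zero) |>.mp h3
  rw [← residue_eq_zero_iff, map_sub, map_one]
  exact h4

/-- **a character of a `p`-group is congruent to `1`** -/
theorem ihsc_char_sub_one_mem {p : ℕ} (hp : p.Prime) (hpR : (p : R) ∈ maximalIdeal R)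
    {G : Type*} [Group G] (H : Subgroup G) (hpg : ∀ d : G, ∃ n : ℕ, d ^ p ^ n ∈ H)
    (ψ : G →* R) (hψ : ∀ d ∈ H, ψ d = 1) (d : G) : ψ d - 1 ∈ maximalIdeal R := by
  obtain ⟨n, hn⟩ := hpg d
  refine ihsc_sub_one_mem_of_pow hp hpR (ψ d) n ?_
  rw [← map_pow, hψ _ hn]

end Char

end Fermat.Agent.Ihara
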