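/-
IHARA track, package (H) [SC] (helper8), file 2: **the Galois side**.

`rA : G_ℚ → GL₂(A)` a continuous matrix representation over a local ring `A`, residually absolutely
irreducible, with Frobenius polynomials `X² - a_ℓ X + ℓ` outside `S`; `φ : A → B` a local homomorphism
to a Noetherian local ring `B` carrying a representation `ρ'` with Frobenius polynomials
`X² - φ(a_ℓ) X + ℓ` which is unramified at `q`.  Then `φ(rA σ) = 1` for `σ` in the inertia groups at `q`
(`ihsc_map_eq_one`: rigidity `alpy_rigid` + transport of unramifiedness), hence `φ(aq) = 1` for the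
inertia scalar `aq = tr(e · rA σ)`, `tr e = 1` (`ihsc_aq_eq_one`).
-/
import Mathlib
import Fermat.Agent.Lib.S53.MatInterface
import Fermat.Agent.Lib.Alpha.S32.Rigid
import Fermat.Agent.Lib.TW.BaseChange
import Fermat.Agent.Lib.Ihara.Dat.Gram

set_option autoImplicit false
set_option linter.unusedSectionVars false
set_option linter.unusedVariables false
set_option linter.style.haveILetI false

open IsLocalRing Polynomial Fermat.Agent.S53Lib Fermat.Agent.TW

namespace Fermat.Agent.Ihara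

local notation "Qbar" => AlgebraicClosure ℚ
local notation "GQ" => (AlgebraicClosure ℚ ≃ₐ[ℚ] AlgebraicClosure ℚ)

open Fermat.Agent.Alpha (AlpyFrob alpy_rigid)

section Resid

variable {𝒪 : Type} [CommRing 𝒪] [IsLocalRing 𝒪]
  {A : Type} [CommRing A] [IsLocalRing A] [Algebra 𝒪 A] [IsLocalHom (algebraMap 𝒪 A)]

/-- equivalent residual representations have the same trace function -/
theorem ihsc_ihdTr_of_isEquiv {k : Type} [Field k] {ρ₁ ρ₂ : ResidualGaloisRep k}
    (h : ρ₁.IsEquiv ρ₂) (σ : GQ) : ihdTr ρ₁ σ = ihdTr ρ₂ σ := by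
  obtain ⟨e⟩ := h
  have h2 : ρ₂.ρ σ = e.toLinearEquiv.conj (ρ₁.ρ σ) := by
    ext y
    rw [LinearEquiv.conj_apply_apply, e.map_apply, LinearEquiv.apply_symm_apply]
  show LinearMap.trace k ρ₁.V (ρ₁.ρ σ) = LinearMap.trace k ρ₂.V (ρ₂.ρ σ)
  rw [h2, LinearMap.trace_conj']

/-- **a strict lift of an absolutely irreducible residual representation is residually absolutely
irreducible** -/
theorem ihsc_residual_absIrr (ρbar : ResidualGaloisRep (ResidueField 𝒪))
    (habs : ρbar.IsAbsolutelyIrreducible) (b : Module.Basis (Fin 2) (ResidueField 𝒪) ρbar.V)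
    (rA : GQ →* Matrix (Fin 2) (Fin 2) A) (hcts : MatCts A rA)
    (hstrict : IsStrictLift (𝒪 := 𝒪) (resMat ρbar b) rA) :
    (ofMat rA hcts).residual.IsAbsolutelyIrreducible := by
  have h1 := residual_ofMat_isEquiv ρbar b rA hcts hstrict
  have hG : IhdGram (ρbar.baseChangeAlong (ResidueField.map (algebraMap 𝒪 A))) :=
    (ihdGram_of_abs ρbar habs).baseChangeAlong _
  exact (hG.of_trace_eq fun σ => (ihsc_ihdTr_of_isEquiv h1 σ).symm).isAbsolutelyIrreducible

end Resid

section Main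

variable {A : Type} [CommRing A] [IsLocalRing A]
  {B : Type} [CommRing B] [IsLocalRing B] [IsNoetherianRing B]

/-- the Frobenius hypothesis `AlpyFrob` for a matrix representation, from traces and determinants -/
theorem ihsc_alpyFrob_ofMat (rA : GQ →* Matrix (Fin 2) (Fin 2) A) (hcts : MatCts A rA)
    (S : Finset ℕ) (a : ℕ → A)
    (hfr : ∀ ℓ : ℕ, ℓ.Prime → ℓ ∉ S → ∀ P : ValuationSubring Qbar, P.LiesOverPrime ℓ →
      ∀ σ : GQ, P.IsFrobeniusAt σ ℓ → (rA σ).trace = a ℓ ∧ (rA σ).det = (ℓ : A)) :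
    AlpyFrob S (ofMat rA hcts) a := by
  intro ℓ hℓ hℓS P hP σ hσ
  obtain ⟨h1, h2⟩ := hfr ℓ hℓ hℓS P hP σ hσ
  have hmat : LinearMap.toMatrix (ofMatBasis rA hcts) (ofMatBasis rA hcts)
      ((ofMat rA hcts).ρ σ) = rA σ := DFunLike.congr_fun (toMatrixRep_ofMat rA hcts) σ
  have h3 : LinearMap.charpoly ((ofMat rA hcts).ρ σ) = (rA σ).charpoly := by
    rw [← LinearMap.charpoly_toMatrix ((ofMat rA hcts).ρ σ) (ofMatBasis rA hcts), hmat]
  rw [h3, Matrix.charpoly_fin_two, h1, h2]

/-- **unramifiedness at a point**: the matrices of the inertia elements at `q` become trivial -/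
theorem ihsc_map_eq_one (rA : GQ →* Matrix (Fin 2) (Fin 2) A) (hcts : MatCts A rA)
    (habs : (ofMat rA hcts).residual.IsAbsolutelyIrreducible)
    (S : Finset ℕ) (a : ℕ → A) (hfr : AlpyFrob S (ofMat rA hcts) a)
    (φ : A →+* B) (hφ : IsLocalHom φ) (ρ' : GaloisRepAdic B)
    (hρ' : AlpyFrob S ρ' (fun ℓ => φ (a ℓ))) (q : ℕ) (hunr : ρ'.IsUnramifiedAt q)
    (P : ValuationSubring Qbar) (hP : P.LiesOverPrime q) (σ : GQ)
    (hσ : σ ∈ P.inertiaSubgroupIn ℚ) : (rA σ).map φ = 1 := by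
  obtain ⟨e⟩ := alpy_rigid S (ofMat rA hcts) habs a hfr φ hφ ρ' hρ'
  have h1 : ((ofMat rA hcts).baseChangeAlong φ hφ).IsUnramifiedAt q :=
    isUnramifiedAt_of_isEquiv ⟨e.symm⟩ hunr
  have h2 : (ofMat (mapMat φ rA) (hcts.map φ hφ)).IsUnramifiedAt q :=
    isUnramifiedAt_of_isEquiv (baseChangeAlong_ofMat rA hcts φ hφ) h1
  have h3 := h2 P hP σ hσ
  have hmat : LinearMap.toMatrix (ofMatBasis (mapMat φ rA) (hcts.map φ hφ))
      (ofMatBasis (mapMat φ rA) (hcts.map φ hφ))
      ((ofMat (mapMat φ rA) (hcts.map φ hφ)).ρ σ) = mapMat φ rA σ :=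
    DFunLike.congr_fun (toMatrixRep_ofMat (mapMat φ rA) (hcts.map φ hφ)) σ
  rw [h3, LinearMap.toMatrix_one] at hmat
  rw [← mapMat_apply, ← hmat]

/-- **the inertia scalar at a point where the representation is unramified is `1`** -/
theorem ihsc_aq_eq_one (rA : GQ →* Matrix (Fin 2) (Fin 2) A) (φ : A →+* B) (σ : GQ)
    (hσ : (rA σ).map φ = 1) (e : Matrix (Fin 2) (Fin 2) A) (he : e.trace = 1) (aq : A)
    (haq : aq = (e * rA σ).trace) : φ aq = 1 := by
  have h1 : φ (e * rA σ).trace = ((e * rA σ).map φ).trace := by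
    rw [Matrix.trace, Matrix.trace, map_sum]
    rfl
  rw [haq, h1, Matrix.map_mul, hσ, mul_one]
  have h2 : (e.map φ).trace = φ e.trace := by
    rw [Matrix.trace, Matrix.trace, map_sum]
    rfl
  rw [h2, he, map_one]

end Main

end Fermat.Agent.Ihara
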