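/-
IHARA track, package (H) [SC] (helper8), file 3: **the `Γ₀`-level step**.

`O` a complete discrete valuation ring of characteristic zero with finite residue field of
characteristic `p`; `r` a prime not dividing `N`, `r ≠ p`, `r ≡ 1 mod 𝔪`.  A non-zero class
`c' ∈ Hom_par(Γ₀(N r), O)` which is an eigenvector of the `T_ℓ` (`ℓ ∉ S`, eigenvalues `lam ℓ`) and on
which `U_r - u` is topologically nilpotent for a unit `u` with `1 - u²` a unit gives:

* `ihsc_eigen_down`  : a non-zero class of level `N` with the same `T_ℓ`-eigenvalues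
  (helper3's `ih4_tw_step`);
* `ihsc_exists_char` : the eigencharacter `χ : heckeAlgebra N 2 S →+* O`, `χ T_ℓ = lam ℓ`;
* `ihsc_level_rep`   : a Galois representation over a finite extension of `O` with Frobenius
  polynomials `X² - lam ℓ X + ℓ` (`ℓ ∉ S`) which is **unramified at `r`** (S30).
-/
import Mathlib
import Fermat.Agent.Lib.Ihara.H4.HeckeAct
import Fermat.Agent.Lib.Alpha.S32.Rigid
import Fermat.Agent.S30

set_option autoImplicit false
set_option linter.unusedSectionVars false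
set_option linter.unusedVariables false
set_option linter.style.haveILetI false

open Matrix MatrixGroups CongruenceSubgroup Fermat.Agent.T1 Fermat.Agent.T2 ModularCurve
  Fermat.Agent.S24Lib ModularCurve.Period Fermat.Agent.LR IsLocalRing Polynomial

namespace Fermat.Agent.Ihara

open Fermat.Agent.Alpha (AlpyFrob)

section TorsionFree

variable {O : Type*} [CommRing O] [IsDomain O] {M : ℕ} [NeZero M]

/-- the Betti modules are torsion-free -/
theorem ihsc_smul_eq_zero {a : O} {c : Ih4H O O M} (h : a • c = 0) : a = 0 ∨ c = 0 := by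
  by_cases ha : a = 0
  · exact Or.inl ha
  · refine Or.inr (Subtype.ext (AddMonoidHom.ext fun γ => ?_))
    have h1 : ((a • c : Ih4H O O M) : Additive (Gamma0 M) →+ O) γ = 0 := by rw [h]; rfl
    have h2 : a * (c : Additive (Gamma0 M) →+ O) γ = 0 := h1
    exact (mul_eq_zero.mp h2).resolve_left ha

end TorsionFree

section Step

variable (O : Type) [CommRing O] [IsDomain O] [CharZero O] [IsLocalRing O] [IsNoetherianRing O]
  [IsAdicComplete (maximalIdeal O) O]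

/-- **the eigensystem away from `r` occurs at level `N`** -/
theorem ihsc_eigen_down (N r : ℕ) [NeZero N] [hr : Fact r.Prime] (h : ¬ r ∣ N) (S : Set ℕ)
    (hrS : r ∈ S) (lam : ℕ → O) (u : O) (hu : IsUnit u) (hu2 : IsUnit (1 - u ^ 2))
    (hr1 : ((r : ℕ) : O) - 1 ∈ maximalIdeal O)
    (c' : Ih4H O O (N * r)) (hc' : c' ≠ 0)
    (hT : ∀ ℓ : ℕ, ℓ.Prime → ℓ ∉ S → ih4Op O (N * r) ℓ c' = lam ℓ • c')
    (hU : c' ∈ ih4pNil1 (maximalIdeal O)
      (ih4Op O (N * r) r - algebraMap O (Module.End O (Ih4H O O (N * r))) u)) :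
    ∃ c'' : Ih4H O O N, c'' ≠ 0 ∧
      ∀ ℓ : ℕ, ℓ.Prime → ℓ ∉ S → ih4Op O N ℓ c'' = lam ℓ • c'' := by
  classical
  set Ps : Set ℕ := {ℓ | (ℓ.Prime ∧ ℓ ∉ S) ∨ ℓ = r} with hPs
  set θ : ℕ → O := fun ℓ => if ℓ = r then u else lam ℓ with hθ
  have hθr : θ r = u := by rw [hθ]; simp
  have hθℓ : ∀ ℓ, ℓ ∉ S → θ ℓ = lam ℓ := by
    intro ℓ hℓ
    have : ℓ ≠ r := fun e => hℓ (e ▸ hrS)
    rw [hθ]; simp [this]
  -- `b₀ = r / u`
  obtain ⟨v, hv⟩ := hu
  set b₀ : O := ((r : ℕ) : O) * ((v⁻¹ : Oˣ) : O) with hb₀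
  have hprod : θ r * b₀ = ((r : ℕ) : O) := by
    rw [hθr, hb₀, ← hv, mul_left_comm, Units.mul_inv, mul_one]
  have hab : IsUnit (θ r - b₀) := by
    have e : θ r - b₀ = ((v⁻¹ : Oˣ) : O) * ((u ^ 2 - 1) - (((r : ℕ) : O) - 1)) := by
      rw [hθr, hb₀, ← hv]
      have := Units.inv_mul v
      linear_combination (-(v : O)) * this
    rw [e]
    refine IsUnit.mul (Units.isUnit _) ?_
    have h1 : IsUnit (u ^ 2 - 1) := by
      have : u ^ 2 - 1 = -(1 - u ^ 2) := by ring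
      rw [this]; exact hu2.neg
    by_contra hnu
    have h2 : (u ^ 2 - 1) - (((r : ℕ) : O) - 1) ∈ maximalIdeal O := (mem_maximalIdeal _).mpr hnu
    have h3 : u ^ 2 - 1 ∈ maximalIdeal O := by
      have := (maximalIdeal O).add_mem h2 hr1
      simpa using this
    exact (mem_maximalIdeal _).mp h3 h1
  have ha₀ : IsUnit (θ r) := by rw [hθr, ← hv]; exact Units.isUnit v
  have ha : IsUnit (1 - θ r ^ 2) := by rw [hθr]; exact hu2
  have hrPs : r ∈ Ps := Or.inr rfl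
  -- `c'` lies in the part
  have hmem : c' ∈ ih4Part O (N * r) Ps θ := by
    rw [ih4_mem_part]
    rintro ℓ (⟨hℓ, hℓS⟩ | rfl)
    · intro n
      refine ⟨1, ?_⟩
      rw [pow_one, LinearMap.sub_apply, Module.algebraMap_end_apply, hT ℓ hℓ hℓS, hθℓ ℓ hℓS,
        sub_self]
      exact Submodule.zero_mem _
    · rw [hθr]
      exact hU
  obtain ⟨Φ, hΦ⟩ := ih4_tw_step O N r h Ps hrPs θ b₀ hprod ha₀ hab ha
  refine ⟨(Φ ⟨c', hmem⟩ : Ih4H O O N), ?_, ?_⟩
  · intro h0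
    have h1 : Φ ⟨c', hmem⟩ = 0 := Subtype.ext h0
    have h2 : (⟨c', hmem⟩ : ↥(ih4Part O (N * r) Ps θ)) = 0 := by
      rw [← LinearEquiv.map_eq_zero_iff Φ]; exact h1
    exact hc' (congrArg Subtype.val h2)
  · intro ℓ hℓ hℓS
    have hℓr : ℓ ≠ r := fun e => hℓS (e ▸ hrS)
    have h1 := hΦ ℓ hℓr ⟨c', hmem⟩ (lam ℓ • ⟨c', hmem⟩) (by
      show lam ℓ • c' = ih4Op O (N * r) ℓ c'
      rw [hT ℓ hℓ hℓS])
    rw [← h1, map_smul]
    rfl

end Step

section Char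

variable (O : Type*) [CommRing O] [IsDomain O] [CharZero O] (N : ℕ) [NeZero N]

/-- **the eigencharacter of an eigenclass** -/
theorem ihsc_exists_char (S : Set ℕ) (hNS : ∀ q : ℕ, q.Prime → q ∣ N → q ∈ S)
    (c : Ih4H O O N) (hc : c ≠ 0) (lam : ℕ → O)
    (hT : ∀ ℓ : ℕ, ℓ.Prime → ℓ ∉ S → ih4Op O N ℓ c = lam ℓ • c) :
    ∃ χ : CuspForm.heckeAlgebra N 2 S →+* O,
      ∀ (ℓ : ℕ) (hℓ : ℓ.Prime) (hℓN : ¬ ℓ ∣ N) (hℓS : ℓ ∉ S),
        χ (CuspForm.heckeAlgebra.T hℓ hℓN hℓS) = lam ℓ := by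
  classical
  have key : ∀ P : MvPolynomial {l : ℕ // l.Prime ∧ l ∉ S} ℤ,
      ih4Hecke O N S (MvPolynomial.aeval (ih4Gen N S) P) c
        = MvPolynomial.aeval (fun l : {l : ℕ // l.Prime ∧ l ∉ S} => lam l.1) P • c := by
    intro P
    induction P using MvPolynomial.induction_on with
    | C a =>
      rw [MvPolynomial.aeval_C, MvPolynomial.aeval_C, algebraMap_int_eq, eq_intCast, eq_intCast,
        map_intCast, Module.End.intCast_apply, ← Int.cast_smul_eq_zsmul O]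
    | add P Q hP hQ =>
      rw [map_add, map_add, map_add, LinearMap.add_apply, hP, hQ, add_smul]
    | mul_X P l hP =>
      rw [map_mul, map_mul, map_mul, Module.End.mul_apply, MvPolynomial.aeval_X,
        MvPolynomial.aeval_X, ih4Hecke_gen, hT l.1 l.2.1 l.2.2, map_smul, hP, smul_smul, mul_comm]
  obtain ⟨f, hf⟩ := ih4Gen_lift N S (fun l : {l : ℕ // l.Prime ∧ l ∉ S} => lam l.1) (by
    intro P hP
    have h1 := key P
    rw [hP, map_zero, LinearMap.zero_apply] at h1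
    exact (ihsc_smul_eq_zero h1.symm).resolve_right hc)
  refine ⟨f, fun ℓ hℓ hℓN hℓS => ?_⟩
  have h1 := hf ⟨ℓ, hℓ, hℓS⟩
  have h2 : ih4Gen N S ⟨ℓ, hℓ, hℓS⟩ = CuspForm.heckeAlgebra.T hℓ hℓN hℓS := by
    unfold ih4Gen
    rw [dif_neg hℓN]
  rw [h2] at h1
  exact h1

end Char

section Rep

local notation "Qbar" => AlgebraicClosure ℚ
local notation "GQ" => (AlgebraicClosure ℚ ≃ₐ[ℚ] AlgebraicClosure ℚ)

/-- **the Galois representation of the eigensystem of a class of level `N r` with unit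
`U_r`-eigenvalue is unramified at `r`** -/
theorem ihsc_level_rep {p : ℕ} [hp : Fact p.Prime]
    (O : Type) [CommRing O] [IsDomain O] [IsDiscreteValuationRing O]
    [IsAdicComplete (maximalIdeal O) O] [Finite (ResidueField O)] [CharZero O]
    (hpO : (p : O) ∈ maximalIdeal O)
    (N r : ℕ) [NeZero N] [hr : Fact r.Prime] (h : ¬ r ∣ N) (hrp : r ≠ p) (S : Finset ℕ)
    (hpS : p ∈ S) (hrS : r ∈ S) (hNS : ∀ q : ℕ, q.Prime → q ∣ N → q ∈ S)
    (lam : ℕ → O) (u : O) (hu : IsUnit u) (hu2 : IsUnit (1 - u ^ 2))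
    (hr1 : ((r : ℕ) : O) - 1 ∈ maximalIdeal O)
    (c' : Ih4H O O (N * r)) (hc' : c' ≠ 0)
    (hT : ∀ ℓ : ℕ, ℓ.Prime → ℓ ∉ S → ih4Op O (N * r) ℓ c' = lam ℓ • c')
    (hU : c' ∈ ih4pNil1 (maximalIdeal O)
      (ih4Op O (N * r) r - algebraMap O (Module.End O (Ih4H O O (N * r))) u)) :
    ∃ (O'' : Type) (_ : CommRing O'') (_ : IsDomain O'') (_ : IsDiscreteValuationRing O'')
      (_ : IsAdicComplete (maximalIdeal O'') O'') (_ : Algebra O O'')
      (_ : IsLocalHom (algebraMap O O'')),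
      Function.Injective (algebraMap O O'') ∧
      ∃ ρ : GaloisRepAdic O'',
        AlpyFrob S ρ (fun ℓ => algebraMap O O'' (lam ℓ)) ∧ ρ.IsUnramifiedAt r := by
  obtain ⟨c'', hc'', hT''⟩ := ihsc_eigen_down O N r h (↑S : Set ℕ) (by exact_mod_cast hrS) lam u hu
    hu2 hr1 c' hc' (fun ℓ hℓ hℓS => hT ℓ hℓ (by exact_mod_cast hℓS)) hU
  obtain ⟨χ, hχ⟩ := ihsc_exists_char O N (↑S : Set ℕ) (fun q hq hqN => by exact_mod_cast hNS q hq hqN)
    c'' hc'' lam hT''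
  obtain ⟨O'', i1, i2, i3, i4, i5, i6, i7, i8, i9, hinj, ρ, hρ, hunr⟩ :=
    Fermat.Agent.S30.result p N S hpS hNS O hpO χ
  refine ⟨O'', i1, i2, i3, i4, i7, i9, hinj, ρ, ?_, hunr r hr.out h hrp⟩
  intro ℓ hℓ hℓS P hP σ hσ
  have hℓN : ¬ ℓ ∣ N := fun hd => hℓS (hNS ℓ hℓ hd)
  have hℓS' : ℓ ∉ (↑S : Set ℕ) := by exact_mod_cast hℓS
  have := hρ ℓ hℓ hℓN hℓS' P hP σ hσ
  rw [hχ ℓ hℓ hℓN hℓS'] at this
  exact this

end Rep

end Fermat.Agent.Ihara
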