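/-
IHARA track, package (H) [SC] (helper8), file 4: **from `Γ_H(M₀)` to `Γ₀(M₀ ∏ Rl)`**.

`c ≠ 0` a class of level `Γ_H(M₀)` (coefficients in a local domain `R` of characteristic zero), an
eigenvector of the diamond operators with a character `ψ` which is trivial on `H' ⊇ H`; `Rl` a chain of
primes for `H'` (`IhtcHyp M₀ H' Rl k`: `H'` contains the components of `(ℤ/M₀)ˣ` at the primes outside
`Rl`).  Then the transfer to `Γ_{H'}(M₀)` followed by helper7's composite twist gives a class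
`c' ≠ 0` of level `Γ₀(M₀ ∏ Rl)` with

* `T_ℓ c' = ψ(z ℓ) lam • c'` whenever `T_ℓ c = lam • c` (`ℓ ∤ M₀ ∏ Rl`),
* `U_q - ψ(z q) α` topologically nilpotent on `c'` whenever `U_q - α` is so on `c`
  (`q ∣ M₀` a prime outside `Rl`),

`z = ihtcZ M₀ Rl k` the diamond twist of the chain (`ihsc_twist_eigen`).
-/
import Mathlib
import Fermat.Agent.Lib.Ihara.Hm.Dia
import Fermat.Agent.Lib.Ihara.Hm.Top
import Fermat.Agent.Lib.Ihara.Tw.Chain

set_option autoImplicit false
set_option linter.unusedSectionVars false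
set_option linter.unusedVariables false
set_option linter.style.haveILetI false

namespace Fermat.Agent.Ihara

open Matrix MatrixGroups CongruenceSubgroup ModularCurve ModularCurve.Period Module IsLocalRing
open Fermat.Agent.DS Fermat.Agent.T1 Fermat.Agent.T1G Fermat.Agent.T2

section Cor

variable (R : Type*) [CommRing R] [IsDomain R] [CharZero R] {M₀ : ℕ} [NeZero M₀]
  {H H' : Subgroup (ZMod M₀)ˣ} (hle : H ≤ H') {I : Type} [Fintype I]
  (τ : IhfTrans (ihfGammaH M₀ H) (ihfGammaH M₀ H') I)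

/-- the transfer commutes with the diamond operators -/
theorem ihsc_cor_dia (d : (ZMod M₀)ˣ) (x : IhfH R R M₀ H) :
    (τ.sys (ihfGammaH_mono hle)).corPar R R (ihmDia R M₀ H d x)
      = ihmDia R M₀ H' d ((τ.sys (ihfGammaH_mono hle)).corPar R R x) :=
  Subtype.ext (ihf_cor_D_tf hle τ (ihm_tf R) d x.1)

include τ in
/-- the transversal is non-empty -/
theorem ihsc_trans_nonempty : Nonempty I := by
  obtain ⟨i, -⟩ := τ.ex 1 (one_mem _)
  exact ⟨i⟩

/-- **the transfer of a class fixed by the diamonds of `H'` is non-zero** -/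
theorem ihsc_cor_ne_zero (x : IhfH R R M₀ H) (hx : x ≠ 0)
    (hfix : ∀ d ∈ H', ihmDia R M₀ H d x = x) :
    (τ.sys (ihfGammaH_mono hle)).corPar R R x ≠ 0 := by
  intro h0
  have h1 : t2fRes (ihfGammaH_mono hle) R
      (((τ.sys (ihfGammaH_mono hle)).corPar R R x : IhfH R R M₀ H') :
        Additive (ihfGammaH M₀ H') →+ R) = 0 := by
    rw [h0]; rfl
  rw [T2fSys₂.corPar_coe, ihf_res_cor hle τ] at h1
  have h2 : ∀ i, (ihfSysC M₀ H (τ.c i) (ihfGammaH_le_Gamma0 (τ.mem i))).hom R x.1 = x.1 := by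
    intro i
    have hg : τ.c i ∈ Gamma0 M₀ := ihfGammaH_le_Gamma0 (τ.mem i)
    have hd : ihfUnitHom M₀ ⟨τ.c i, hg⟩ ∈ H' := (ihf_mem_GammaH_iff' hg).mp (τ.mem i)
    rw [← ihfSysD_hom_eq M₀ H _ (τ.c i) hg (ihfUnitHom_coe ⟨τ.c i, hg⟩).symm x.1]
    exact congrArg Subtype.val (hfix _ hd)
  rw [Finset.sum_congr rfl fun i _ => h2 i, Finset.sum_const, Finset.card_univ] at h1
  haveI : Nonempty I := ihsc_trans_nonempty τ
  have h3 : (x : Additive (ihfGammaH M₀ H) →+ R) = 0 := by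
    refine AddMonoidHom.ext fun γ => ?_
    have h4 := DFunLike.congr_fun h1 γ
    rw [AddMonoidHom.nsmul_apply, AddMonoidHom.zero_apply] at h4
    exact ihm_tf R _ Fintype.card_ne_zero _ h4
  exact hx (Subtype.ext h3)

end Cor

section Main

variable {M₀ : ℕ} [NeZero M₀] (hM : 6 ≤ M₀) {H H' : Subgroup (ZMod M₀)ˣ} (hle : H ≤ H')
  {I : Type} [Fintype I] (τ : IhfTrans (ihfGammaH M₀ H) (ihfGammaH M₀ H') I)

include hM hle τ in
/-- **the twisted class of level `Γ₀(M₀ ∏ Rl)`** -/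
theorem ihsc_twist_eigen {Rl : List ℕ} {k : ℕ → ℕ} (hyp : IhtcHyp M₀ H' Rl k) (hne : Rl ≠ [])
    {N' : ℕ} [NeZero N'] (hN' : N' = M₀ * Rl.prod)
    (R : Type) [CommRing R] [IsDomain R] [CharZero R] [IsLocalRing R]
    (ψ : (ZMod M₀)ˣ →* R) (hψ : ∀ d ∈ H', ψ d = 1)
    (c : IhfH R R M₀ H) (hc0 : c ≠ 0) (hcD : ∀ d, ihmDia R M₀ H d c = ψ d • c) :
    ∃ c' : Ih4H R R N', c' ≠ 0 ∧
      (∀ ℓ : ℕ, ℓ.Prime → ¬ ℓ ∣ N' → ∀ lam : R, ihmOp R M₀ H ℓ c = lam • c →
        ih4Op R N' ℓ c' = (ψ (ihtcZ M₀ Rl k ℓ) * lam) • c') ∧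
      (∀ q : ℕ, q.Prime → q ∣ M₀ → q ∉ Rl → ∀ α : R,
        c ∈ ih4pNil1 (maximalIdeal R)
          (ihmOp R M₀ H q - algebraMap R (Module.End R (IhfH R R M₀ H)) α) →
        c' ∈ ih4pNil1 (maximalIdeal R)
          (ih4Op R N' q - algebraMap R (Module.End R (Ih4H R R N'))
            (ψ (ihtcZ M₀ Rl k q) * α))) := by
  classical
  set cor := (τ.sys (ihfGammaH_mono hle)).corPar R R with hcor
  set c₁ : IhfH R R M₀ H' := cor c with hc₁
  -- the diamonds on `c₁`
  have hD₁ : ∀ d, ihmDia R M₀ H' d c₁ = ψ d • c₁ := by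
    intro d
    rw [hc₁, hcor, ← ihsc_cor_dia R hle τ d c, hcD d, map_smul]
  have hc₁0 : c₁ ≠ 0 := by
    refine ihsc_cor_ne_zero R hle τ c hc0 fun d hd => ?_
    rw [hcD d, hψ d hd, one_smul]
  -- the twist
  obtain ⟨v, hv⟩ := List.exists_mem_of_ne_nil Rl hne
  obtain ⟨Tw, hG, -, hGU⟩ := ihtc_exists' hyp hv hN' R R
  have hMN' : M₀ ∣ N' := ⟨_, hN'⟩
  refine ⟨Tw c₁, fun h0 => hc₁0 (hG.inj ψ c₁ hD₁ h0), ?_, ?_⟩
  · intro ℓ hℓ hℓN' lam hlam
    have hℓM : ¬ ℓ ∣ M₀ := fun h => hℓN' (h.trans hMN')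
    have h1 : ihmOp R M₀ H' ℓ c₁ = lam • c₁ := by
      rw [hc₁, hcor, ← ihm_cor_op R M₀ hM hle τ ℓ c, hlam, map_smul]
    rw [ih4Op_of_not_dvd R N' hℓ hℓN']
    show (tdmSysT N' ℓ hℓ hℓN').homPar R R (Tw c₁) = _
    rw [hG.T_tw ℓ hℓ hℓN' hℓM c₁]
    have h2 : (ihfSysD M₀ H' (ihtcZ M₀ Rl k ℓ)).homPar R R c₁ = ψ (ihtcZ M₀ Rl k ℓ) • c₁ :=
      hD₁ _
    rw [h2, map_smul, ← ihmOp_of_not_dvd R M₀ H' hℓ hℓM, h1, map_smul, map_smul, smul_smul]
  · intro q hq hqM hqRl α hnil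
    set b : R := ψ (ihtcZ M₀ Rl k q) with hb
    have hqN' : q ∣ N' := hqM.trans hMN'
    -- the operators
    set U : Module.End R (IhfH R R M₀ H') := ihmOp R M₀ H' q with hU
    set U' : Module.End R (Ih4H R R N') := ih4Op R N' q with hU'
    -- the eigenspace of the diamonds
    have hE : ∀ y : IhfH R R M₀ H', (∀ d, ihmDia R M₀ H' d y = ψ d • y) →
        ∀ d, ihmDia R M₀ H' d (U y) = ψ d • U y := by
      intro y hy d
      have h1 := LinearMap.congr_fun (ihmOp_commute_dia R M₀ hM H' q d).eq y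
      rw [Module.End.mul_apply, Module.End.mul_apply] at h1
      rw [hU, ← h1, hy d, map_smul]
    have hE' : ∀ y : IhfH R R M₀ H', (∀ d, ihmDia R M₀ H' d y = ψ d • y) →
        ∀ d, ihmDia R M₀ H' d ((U - algebraMap R _ α) y) = ψ d • (U - algebraMap R _ α) y := by
      intro y hy d
      rw [LinearMap.sub_apply, Module.algebraMap_end_apply, map_sub, map_smul, hE y hy d, hy d,
        smul_sub, smul_comm]
    have hstep : ∀ y : IhfH R R M₀ H', (∀ d, ihmDia R M₀ H' d y = ψ d • y) →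
        (U' - algebraMap R _ (b * α)) (Tw y) = b • Tw ((U - algebraMap R _ α) y) := by
      intro y hy
      have h1 : U' (Tw y) = b • Tw (U y) := by
        rw [hU', ih4Op_of_dvd R N' hq hqN']
        show (tdmSysU N' q hqN' hq.ne_zero).homPar R R (Tw y) = _
        rw [hGU.U_tw q hq hqM hqRl (tdmSysU N' q hqN' hq.ne_zero) (tdmSysU_rep _ _ _ _) y]
        have h2 : (ihfSysD M₀ H' (ihtcZ M₀ Rl k q)).homPar R R y = b • y := hy _
        rw [h2, map_smul, map_smul, ← ihmOp_of_dvd R M₀ H' hq hqM]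
      rw [LinearMap.sub_apply, Module.algebraMap_end_apply, h1, LinearMap.sub_apply,
        Module.algebraMap_end_apply, map_sub, map_smul, smul_sub, smul_smul]
    have hpow : ∀ (N : ℕ) (y : IhfH R R M₀ H'), (∀ d, ihmDia R M₀ H' d y = ψ d • y) →
        ((U' - algebraMap R _ (b * α)) ^ N) (Tw y)
          = b ^ N • Tw (((U - algebraMap R _ α) ^ N) y) := by
      intro N
      induction N with
      | zero => intro y _; simp
      | succ N ih =>
        intro y hy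
        rw [pow_succ, Module.End.mul_apply, hstep y hy, map_smul,
          ih _ (hE' y hy), smul_smul, pow_succ (U - algebraMap R _ α), Module.End.mul_apply,
          pow_succ, mul_comm]
    -- `c₁` is topologically nilpotent for `U - α`
    have hnil₁ : c₁ ∈ ih4pNil1 (maximalIdeal R) (U - algebraMap R _ α) := by
      refine ih4pNil1_map (f := cor) (fun x => ?_) hnil
      rw [LinearMap.sub_apply, LinearMap.sub_apply, Module.algebraMap_end_apply,
        Module.algebraMap_end_apply, map_sub, map_smul, hU, hcor, ihm_cor_op R M₀ hM hle τ q x]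
    intro n
    obtain ⟨N, hN⟩ := hnil₁ n
    refine ⟨N, ?_⟩
    rw [hpow N c₁ hD₁]
    exact Submodule.smul_mem _ _ (ih4p_map_mem_smul_top Tw _ hN)

end Main

end Fermat.Agent.Ihara
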