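/-
IHARA track, package (H) [SC] (helper8), file 6: **the Galois representation at a point whose diamond
character is trivial at the prime `q` of the chain is unramified at `q`**.

`R` a complete discrete valuation ring of characteristic zero with finite residue field of
characteristic `p`; `c ≠ 0` a class in `Hom_par(Γ_H(N), R)`, eigenvector of the diamonds with a
character `ψ` trivial on `H' ⊇ H ∪ ι_q((ℤ/q)ˣ)`, eigenvector of the twisted Hecke operators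
`T♭_ℓ = T_ℓ ⟨ihtcZ N Rl k ℓ⟩` (`ℓ ∉ S`) of the FULL chain `Rl ∋ q` with eigenvalues `lam ℓ`, and on which
`U_q - α` is topologically nilpotent (`α` a unit, `1 - α²` a unit, `q ≡ 1 mod 𝔪`).  Then

* `ihsc_class_rep` : the eigensystem `lam` is carried by a Galois representation over a finite
  extension of `R` which is **unramified at `q`** (transfer to `Γ_{H'}(N)`, the composite twist along
  `Rl ∖ q` to `Γ₀(N'' q)`, level lowering `N'' q → N''` by `ih4_tw_step`, S30);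
* `ihsc_point` : if `lam ℓ = φ(tr rA(Frob_ℓ))` for a residually absolutely irreducible
  `rA : G_ℚ → GL₂(A)` and a local homomorphism `φ : A → R`, then `φ(rA σ) = 1` for `σ` in the inertia
  groups at `q`;
* `ihsc_point_aq` : hence `φ(aq) = 1` for the inertia scalar `aq = tr(e · rA σ)`, `tr e = 1`.
-/
import Mathlib
import Fermat.Agent.Lib.Ihara.Sc.Gal
import Fermat.Agent.Lib.Ihara.Sc.Level
import Fermat.Agent.Lib.Ihara.Sc.Twist
import Fermat.Agent.Lib.Ihara.Sc.Chain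
import Fermat.Agent.Lib.Ihara.Tw.ChainHecke

set_option autoImplicit false
set_option linter.unusedSectionVars false
set_option linter.unusedVariables false
set_option linter.style.haveILetI false

open Matrix MatrixGroups CongruenceSubgroup ModularCurve ModularCurve.Period Module IsLocalRing
open Fermat.Agent.DS Fermat.Agent.T1 Fermat.Agent.T1G Fermat.Agent.T2 Fermat.Agent.S53Lib
  Fermat.Agent.TW

namespace Fermat.Agent.Ihara

local notation "Qbar" => AlgebraicClosure ℚ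
local notation "GQ" => (AlgebraicClosure ℚ ≃ₐ[ℚ] AlgebraicClosure ℚ)

open Fermat.Agent.Alpha (AlpyFrob)

/-- an element congruent to a unit of a local ring is a unit -/
theorem ihsc_isUnit_of_sub_mem {T : Type*} [CommRing T] [IsLocalRing T] {u v : T} (hu : IsUnit u)
    (h : v - u ∈ maximalIdeal T) : IsUnit v := by
  by_contra hv
  have hv' : v ∈ maximalIdeal T := (mem_maximalIdeal v).mpr hv
  have h1 : u ∈ maximalIdeal T := by
    have := (maximalIdeal T).sub_mem hv' h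
    rwa [sub_sub_cancel] at this
  exact (mem_maximalIdeal u).mp h1 hu

section

variable (p : ℕ) [hp : Fact p.Prime]
  {R : Type} [CommRing R] [IsDomain R] [IsDiscreteValuationRing R] [CharZero R]
  [IsAdicComplete (maximalIdeal R) R] [Finite (ResidueField R)]
  (hpR : (p : R) ∈ maximalIdeal R)
  {N : ℕ} [NeZero N] (hN6 : 6 ≤ N) {H H' : Subgroup (ZMod N)ˣ} (hle : H ≤ H')
  {I : Type} [Fintype I] (τ : IhfTrans (ihfGammaH N H) (ihfGammaH N H') I)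

include hpR hN6 hle τ in
/-- **the eigensystem of a class whose diamond character is trivial at `q` comes from a Galois
representation which is unramified at `q`** -/
theorem ihsc_class_rep {Rl : List ℕ} {k : ℕ → ℕ} (hyp : IhtcHyp N H Rl k) {q : ℕ} (hq : q ∈ Rl)
    (hqp : q ≠ p) (hqH' : ∀ u : (ZMod q)ˣ, ihtcIota N q u ∈ H') (hne : Rl.erase q ≠ [])
    {N' : ℕ} (hN' : N' = N * Rl.prod)
    (S : Finset ℕ) (hpS : p ∈ S) (hNS : ∀ ℓ : ℕ, ℓ.Prime → ℓ ∣ N' → ℓ ∈ S)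
    (ψ : (ZMod N)ˣ →* R) (hψ : ∀ d ∈ H', ψ d = 1) (hψ1 : ∀ d, ψ d - 1 ∈ maximalIdeal R)
    (lam : ℕ → R) (c : ↥(parabolicHoms R (ihfGammaH N H) R)) (hc0 : c ≠ 0)
    (hcD : ∀ x : (ZMod N)ˣ, (ihfSysD N H x).homPar R R c = ψ x • c)
    (hcT : ∀ ℓ : ℕ, ℓ.Prime → ¬ ℓ ∣ N' → ℓ ∉ S →
      ihtrOp H R R (ihtcZ N Rl k) ℓ c = lam ℓ • c)
    (α : R) (hα : IsUnit α) (hα2 : IsUnit (1 - α ^ 2))
    (hq1 : ((q : ℕ) : R) - 1 ∈ maximalIdeal R)
    (hcN : c ∈ ih4pNil1 (maximalIdeal R)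
      (ihmOp R N H q - algebraMap R (Module.End R (IhfH R R N H)) α)) :
    ∃ (O'' : Type) (_ : CommRing O'') (_ : IsDomain O'') (_ : IsDiscreteValuationRing O'')
      (_ : IsAdicComplete (maximalIdeal O'') O'') (_ : Algebra R O'')
      (_ : IsLocalHom (algebraMap R O'')),
      Function.Injective (algebraMap R O'') ∧
      ∃ ρ : GaloisRepAdic O'',
        AlpyFrob S ρ (fun ℓ => algebraMap R O'' (lam ℓ)) ∧ ρ.IsUnramifiedAt q := by
  classical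
  haveI hqF : Fact q.Prime := ⟨hyp.prime q hq⟩
  have hqN : q ∣ N := hyp.dvd q hq
  have hq2 : ¬ q * q ∣ N := hyp.not_sq q hq
  have hyp' : IhtcHyp N H' (Rl.erase q) k := ihsc_hyp_erase hyp hq hle hqH'
  obtain ⟨N'', heq, hqN''⟩ := ihsc_level_eq hyp.nodup hyp.prime hq hqN hq2
  have hprod : Rl.prod = q * (Rl.erase q).prod := (List.prod_erase hq).symm
  have hN'eq : N' = N'' * q * q := by rw [hN', hprod, ← heq]; ring
  have hne0 : N * (Rl.erase q).prod ≠ 0 := by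
    refine mul_ne_zero (NeZero.ne N) ?_
    intro h0
    exact (hyp'.prime 0 (List.prod_eq_zero_iff.mp h0)).ne_zero rfl
  haveI hN''0 : NeZero N'' := ⟨fun h => hne0 (by rw [heq, h, zero_mul])⟩
  haveI : NeZero (N'' * q) := ⟨by rw [← heq]; exact hne0⟩
  have hdvd : N'' * q ∣ N' := ⟨q, hN'eq⟩
  -- the character does not see `q`
  have hψq : ∀ u : (ZMod q)ˣ, ψ (ihtcIota N q u) = 1 := fun u => hψ _ (hqH' u)
  -- the diamonds in the form of `Hm`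
  have hcD' : ∀ d, ihmDia R N H d c = ψ d • c := hcD
  -- the eigenvalues of the untwisted operators
  have hψu : ∀ d : (ZMod N)ˣ, ψ d⁻¹ * ψ d = 1 := fun d => by
    rw [← map_mul, inv_mul_cancel, map_one]
  have hcT' : ∀ ℓ : ℕ, ℓ.Prime → ℓ ∉ S →
      ihmOp R N H ℓ c = (ψ (ihtcZ N Rl k ℓ)⁻¹ * lam ℓ) • c := by
    intro ℓ hℓ hℓS
    have hℓN' : ¬ ℓ ∣ N' := fun h => hℓS (hNS ℓ hℓ h)
    have hℓN : ¬ ℓ ∣ N := fun h => hℓN' (h.trans ⟨_, hN'⟩)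
    have h1 := hcT ℓ hℓ hℓN' hℓS
    rw [ihtrOp_of H R R _ hℓ hℓN, LinearMap.comp_apply, hcD, map_smul,
      ← ihmOp_of_not_dvd R N H hℓ hℓN] at h1
    rw [mul_smul, ← h1, smul_smul, hψu, one_smul]
  -- the twisted class of level `Γ₀(N'' q)`
  obtain ⟨c', hc'0, hT', hU'⟩ := ihsc_twist_eigen hN6 hle τ hyp' hne heq.symm R ψ hψ c hc0 hcD'
  -- the unit `u`
  set u : R := ψ (ihtcZ N (Rl.erase q) k q) * α with hu
  have hψunit : ∀ d : (ZMod N)ˣ, IsUnit (ψ d) := fun d =>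
    IsUnit.of_mul_eq_one _ (by rw [mul_comm]; exact hψu d)
  have huU : IsUnit u := (hψunit _).mul hα
  have hu2 : IsUnit (1 - u ^ 2) := by
    refine ihsc_isUnit_of_sub_mem hα2 ?_
    have h1 : 1 - u ^ 2 - (1 - α ^ 2)
        = -((ψ (ihtcZ N (Rl.erase q) k q) - 1) * ((ψ (ihtcZ N (Rl.erase q) k q) + 1) * α ^ 2)) := by
      rw [hu]; ring
    rw [h1]
    exact (maximalIdeal R).neg_mem ((maximalIdeal R).mul_mem_right _ (hψ1 _))
  have hqS : q ∈ S := hNS q hqF.out (by rw [hN'eq]; exact Dvd.intro_left _ rfl)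
  have hNS'' : ∀ ℓ : ℕ, ℓ.Prime → ℓ ∣ N'' → ℓ ∈ S := fun ℓ hℓ h =>
    hNS ℓ hℓ ((h.trans (Dvd.intro q rfl)).trans hdvd)
  have hqnot : q ∉ Rl.erase q := hyp.nodup.not_mem_erase
  exact ihsc_level_rep (p := p) R hpR N'' q hqN'' hqp S hpS hqS hNS'' lam u huU hu2 hq1 c' hc'0
    (fun ℓ hℓ hℓS => by
      have hℓN' : ¬ ℓ ∣ N' := fun h => hℓS (hNS ℓ hℓ h)
      have hℓN'' : ¬ ℓ ∣ N'' * q := fun h => hℓN' (h.trans hdvd)
      rw [hT' ℓ hℓ hℓN'' _ (hcT' ℓ hℓ hℓS), ← ihsc_char_Z_erase ψ hq hψq ℓ, ← mul_assoc,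
        mul_comm (ψ _), hψu, one_mul])
    (hU' q hqF.out hqN hqnot α hcN)

include hpR hN6 hle τ in
/-- **[SC] at a point**: the matrices of the inertia elements at `q` become trivial at a point whose
diamond character is trivial at `q` -/
theorem ihsc_point {Rl : List ℕ} {k : ℕ → ℕ} (hyp : IhtcHyp N H Rl k) {q : ℕ} (hq : q ∈ Rl)
    (hqp : q ≠ p) (hqH' : ∀ u : (ZMod q)ˣ, ihtcIota N q u ∈ H') (hne : Rl.erase q ≠ [])
    {N' : ℕ} (hN' : N' = N * Rl.prod)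
    (S : Finset ℕ) (hpS : p ∈ S) (hNS : ∀ ℓ : ℕ, ℓ.Prime → ℓ ∣ N' → ℓ ∈ S)
    {A : Type} [CommRing A] [IsLocalRing A]
    (rA : GQ →* Matrix (Fin 2) (Fin 2) A) (hcts : MatCts A rA)
    (habs : (ofMat rA hcts).residual.IsAbsolutelyIrreducible)
    (a : ℕ → A)
    (hfr : ∀ ℓ : ℕ, ℓ.Prime → ℓ ∉ S → ∀ P : ValuationSubring Qbar, P.LiesOverPrime ℓ →
      ∀ σ : GQ, P.IsFrobeniusAt σ ℓ → (rA σ).trace = a ℓ ∧ (rA σ).det = (ℓ : A))
    (φ : A →+* R) (hφ : IsLocalHom φ)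
    (ψ : (ZMod N)ˣ →* R) (hψ : ∀ d ∈ H', ψ d = 1) (hψ1 : ∀ d, ψ d - 1 ∈ maximalIdeal R)
    (c : ↥(parabolicHoms R (ihfGammaH N H) R)) (hc0 : c ≠ 0)
    (hcD : ∀ x : (ZMod N)ˣ, (ihfSysD N H x).homPar R R c = ψ x • c)
    (hcT : ∀ ℓ : ℕ, ℓ.Prime → ¬ ℓ ∣ N' → ℓ ∉ S →
      ihtrOp H R R (ihtcZ N Rl k) ℓ c = φ (a ℓ) • c)
    (α : R) (hα : IsUnit α) (hα2 : IsUnit (1 - α ^ 2))
    (hq1 : ((q : ℕ) : R) - 1 ∈ maximalIdeal R)
    (hcN : c ∈ ih4pNil1 (maximalIdeal R)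
      (ihmOp R N H q - algebraMap R (Module.End R (IhfH R R N H)) α))
    (P : ValuationSubring Qbar) (hP : P.LiesOverPrime q) (σ : GQ)
    (hσ : σ ∈ P.inertiaSubgroupIn ℚ) : (rA σ).map φ = 1 := by
  obtain ⟨O'', i1, i2, i3, i4, i5, i6, hinj, ρ, hρ, hunr⟩ :=
    ihsc_class_rep p hpR hN6 hle τ hyp hq hqp hqH' hne hN' S hpS hNS ψ hψ hψ1
      (fun ℓ => φ (a ℓ)) c hc0 hcD hcT α hα hα2 hq1 hcN
  have hφ'' : IsLocalHom ((algebraMap R O'').comp φ) :=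
    ⟨fun x hx => hφ.map_nonunit x (i6.map_nonunit _ hx)⟩
  have h1 : (rA σ).map ((algebraMap R O'').comp φ) = 1 :=
    ihsc_map_eq_one rA hcts habs S a (ihsc_alpyFrob_ofMat rA hcts S a hfr)
      ((algebraMap R O'').comp φ) hφ'' ρ hρ q hunr P hP σ hσ
  ext i j
  refine hinj ?_
  have h2 := congrFun (congrFun h1 i) j
  rw [Matrix.map_apply, RingHom.comp_apply] at h2
  rw [Matrix.map_apply, h2]
  by_cases hij : i = j
  · subst hij
    rw [Matrix.one_apply_eq, Matrix.one_apply_eq, map_one]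
  · rw [Matrix.one_apply_ne hij, Matrix.one_apply_ne hij, map_zero]

include hpR hN6 hle τ in
/-- **[SC] at a point**, for the inertia scalar: `φ(aq) = 1` -/
theorem ihsc_point_aq {Rl : List ℕ} {k : ℕ → ℕ} (hyp : IhtcHyp N H Rl k) {q : ℕ} (hq : q ∈ Rl)
    (hqp : q ≠ p) (hqH' : ∀ u : (ZMod q)ˣ, ihtcIota N q u ∈ H') (hne : Rl.erase q ≠ [])
    {N' : ℕ} (hN' : N' = N * Rl.prod)
    (S : Finset ℕ) (hpS : p ∈ S) (hNS : ∀ ℓ : ℕ, ℓ.Prime → ℓ ∣ N' → ℓ ∈ S)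
    {A : Type} [CommRing A] [IsLocalRing A]
    (rA : GQ →* Matrix (Fin 2) (Fin 2) A) (hcts : MatCts A rA)
    (habs : (ofMat rA hcts).residual.IsAbsolutelyIrreducible)
    (a : ℕ → A)
    (hfr : ∀ ℓ : ℕ, ℓ.Prime → ℓ ∉ S → ∀ P : ValuationSubring Qbar, P.LiesOverPrime ℓ →
      ∀ σ : GQ, P.IsFrobeniusAt σ ℓ → (rA σ).trace = a ℓ ∧ (rA σ).det = (ℓ : A))
    (φ : A →+* R) (hφ : IsLocalHom φ)
    (ψ : (ZMod N)ˣ →* R) (hψ : ∀ d ∈ H', ψ d = 1) (hψ1 : ∀ d, ψ d - 1 ∈ maximalIdeal R)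
    (c : ↥(parabolicHoms R (ihfGammaH N H) R)) (hc0 : c ≠ 0)
    (hcD : ∀ x : (ZMod N)ˣ, (ihfSysD N H x).homPar R R c = ψ x • c)
    (hcT : ∀ ℓ : ℕ, ℓ.Prime → ¬ ℓ ∣ N' → ℓ ∉ S →
      ihtrOp H R R (ihtcZ N Rl k) ℓ c = φ (a ℓ) • c)
    (α : R) (hα : IsUnit α) (hα2 : IsUnit (1 - α ^ 2))
    (hq1 : ((q : ℕ) : R) - 1 ∈ maximalIdeal R)
    (hcN : c ∈ ih4pNil1 (maximalIdeal R)
      (ihmOp R N H q - algebraMap R (Module.End R (IhfH R R N H)) α))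
    (P : ValuationSubring Qbar) (hP : P.LiesOverPrime q) (σ : GQ)
    (hσ : σ ∈ P.inertiaSubgroupIn ℚ)
    (e : Matrix (Fin 2) (Fin 2) A) (he : e.trace = 1) (aq : A) (haq : aq = (e * rA σ).trace) :
    φ aq = 1 :=
  ihsc_aq_eq_one rA φ σ
    (ihsc_point p hpR hN6 hle τ hyp hq hqp hqH' hne hN' S hpS hNS rA hcts habs a hfr φ hφ ψ hψ hψ1
      c hc0 hcD hcT α hα hα2 hq1 hcN P hP σ hσ) e he aq haq

end

section Ker

/-- a transversal of `Γ_H(M)` in `Γ_{H'}(M)` exists -/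
theorem ihsc_exists_trans {M : ℕ} [NeZero M] (H H' : Subgroup (ZMod M)ˣ) :
    ∃ (I : Type) (_ : Fintype I), Nonempty (IhfTrans (ihfGammaH M H) (ihfGammaH M H') I) := by
  classical
  have hfin : Fintype (↥H' ⧸ H.subgroupOf H') := Fintype.ofFinite _
  refine ⟨↥H' ⧸ H.subgroupOf H', hfin, ⟨ihfTransOfUnits
    (fun δ => ((Quotient.out δ : ↥H') : (ZMod M)ˣ)) (fun δ => (Quotient.out δ : ↥H').2) ?_ ?_⟩⟩
  · intro u hu
    refine ⟨((⟨u, hu⟩ : ↥H') : ↥H' ⧸ H.subgroupOf H'), ?_⟩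
    have h : ((Quotient.out ((⟨u, hu⟩ : ↥H') : ↥H' ⧸ H.subgroupOf H') : ↥H') :
        ↥H' ⧸ H.subgroupOf H') = ((⟨u, hu⟩ : ↥H') : ↥H' ⧸ H.subgroupOf H') :=
      QuotientGroup.out_eq' _
    rw [QuotientGroup.eq, Subgroup.mem_subgroupOf] at h
    rw [mul_comm]
    exact h
  · intro a b h
    have h1 : ((Quotient.out a : ↥H') : ↥H' ⧸ H.subgroupOf H') = a := QuotientGroup.out_eq' _
    have h2 : ((Quotient.out b : ↥H') : ↥H' ⧸ H.subgroupOf H') = b := QuotientGroup.out_eq' _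
    rw [← h1, ← h2, QuotientGroup.eq, Subgroup.mem_subgroupOf]
    have h3 : (((Quotient.out a : ↥H')⁻¹ * (Quotient.out b : ↥H') : ↥H') : (ZMod M)ˣ)
        = (((Quotient.out a : ↥H') : (ZMod M)ˣ) * ((Quotient.out b : ↥H') : (ZMod M)ˣ)⁻¹)⁻¹ := by
      rw [_root_.mul_inv_rev, inv_inv, mul_comm]
      rfl
    rw [h3]
    exact inv_mem h

variable (p : ℕ) [hp : Fact p.Prime]
  {R : Type} [CommRing R] [IsDomain R] [IsDiscreteValuationRing R] [CharZero R]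
  [IsAdicComplete (maximalIdeal R) R] [Finite (ResidueField R)]
  (hpR : (p : R) ∈ maximalIdeal R)
  {N : ℕ} [NeZero N] (hN6 : 6 ≤ N) {H : Subgroup (ZMod N)ˣ}

include hpR hN6 in
/-- **[SC] at a point**, consumer form (no auxiliary subgroup, no transversal): the diamond character
`ψ` of the class is trivial on `H` and on the component `ι_q((ℤ/q)ˣ)`; then `φ(rA σ) = 1` for `σ` in
the inertia groups at `q` and `φ(aq) = 1`. -/
theorem ihsc_point_ker {Rl : List ℕ} {k : ℕ → ℕ} (hyp : IhtcHyp N H Rl k) {q : ℕ} (hq : q ∈ Rl)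
    (hqp : q ≠ p) (hne : Rl.erase q ≠ [])
    {N' : ℕ} (hN' : N' = N * Rl.prod)
    (S : Finset ℕ) (hpS : p ∈ S) (hNS : ∀ ℓ : ℕ, ℓ.Prime → ℓ ∣ N' → ℓ ∈ S)
    {A : Type} [CommRing A] [IsLocalRing A]
    (rA : GQ →* Matrix (Fin 2) (Fin 2) A) (hcts : MatCts A rA)
    (habs : (ofMat rA hcts).residual.IsAbsolutelyIrreducible)
    (a : ℕ → A)
    (hfr : ∀ ℓ : ℕ, ℓ.Prime → ℓ ∉ S → ∀ P : ValuationSubring Qbar, P.LiesOverPrime ℓ →
      ∀ σ : GQ, P.IsFrobeniusAt σ ℓ → (rA σ).trace = a ℓ ∧ (rA σ).det = (ℓ : A))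
    (φ : A →+* R) (hφ : IsLocalHom φ)
    (ψ : (ZMod N)ˣ →* R) (hψH : ∀ d ∈ H, ψ d = 1)
    (hψq : ∀ u : (ZMod q)ˣ, ψ (ihtcIota N q u) = 1)
    (hψ1 : ∀ d, ψ d - 1 ∈ maximalIdeal R)
    (c : ↥(parabolicHoms R (ihfGammaH N H) R)) (hc0 : c ≠ 0)
    (hcD : ∀ x : (ZMod N)ˣ, (ihfSysD N H x).homPar R R c = ψ x • c)
    (hcT : ∀ ℓ : ℕ, ℓ.Prime → ¬ ℓ ∣ N' → ℓ ∉ S →
      ihtrOp H R R (ihtcZ N Rl k) ℓ c = φ (a ℓ) • c)
    (α : R) (hα : IsUnit α) (hα2 : IsUnit (1 - α ^ 2))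
    (hq1 : ((q : ℕ) : R) - 1 ∈ maximalIdeal R)
    (hcN : c ∈ ih4pNil1 (maximalIdeal R)
      (ihmOp R N H q - algebraMap R (Module.End R (IhfH R R N H)) α))
    (P : ValuationSubring Qbar) (hP : P.LiesOverPrime q) (σ : GQ)
    (hσ : σ ∈ P.inertiaSubgroupIn ℚ) :
    (rA σ).map φ = 1 ∧
      ∀ (e : Matrix (Fin 2) (Fin 2) A), e.trace = 1 → ∀ aq : A, aq = (e * rA σ).trace →
        φ aq = 1 := by
  have hle : H ≤ MonoidHom.ker ψ := fun d hd => MonoidHom.mem_ker.mpr (hψH d hd)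
  obtain ⟨I, hI, ⟨τ⟩⟩ := ihsc_exists_trans H (MonoidHom.ker ψ)
  have h1 : (rA σ).map φ = 1 :=
    ihsc_point p hpR hN6 hle τ hyp hq hqp (fun u => MonoidHom.mem_ker.mpr (hψq u)) hne hN' S hpS hNS
      rA hcts habs a hfr φ hφ ψ (fun d hd => MonoidHom.mem_ker.mp hd) hψ1 c hc0 hcD hcT α hα hα2
      hq1 hcN P hP σ hσ
  exact ⟨h1, fun e he aq haq => ihsc_aq_eq_one rA φ σ h1 e he aq haq⟩

end Ker

end Fermat.Agent.Ihara
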